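import Mathlib
import Fermat.Prelude.Def_CuspForm_HeckeEvalForms
import Fermat.Prelude.Sol.S_ModularForm_heckeT_slash_eq_self_of_mem_Gamma0
import Fermat.Agent.S21
import Fermat.Agent.S22.HeckeStable

/-!
# S16, lower bound, piece LB3 of `NOTES/items/15_LB_plan.md`: Hecke operators on `Hom_par(Γ₀(N), ℂ)`

Via the Eichler–Shimura isomorphism `Φ = periodHomPair N : S₂ × S₂ ≃ Hom_par(Γ₀(N), ℂ)` (S21) the
abstract Hecke algebra `ModularCurve.HeckeAlg = ℤ[X_ℓ]` acts on `V = parabolicHoms ℂ (Gamma0 N) ℂ`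
by `τ r = Φ ∘ (T_r × T_r) ∘ Φ⁻¹`, and the generators act by the classical coset formulas.

* `S16_heckeCohHom N : ModularCurve.HeckeAlg →+* Module.End ℂ V`
* `S16_heckeCohHom_eq_zero` : `heckeEvalForms N 2 r = 0` (as an endomorphism) `→ τ r = 0`
* `S16_heckeCohHom_heckeT` : for `ℓ ∤ N`, `(τ X_ℓ χ) γ = ∑_i χ (g' i)` whenever
  `heckeRep ℓ i * γ = g' i * heckeRep ℓ (σ i)` (arbitrary permutation `σ`)
* `S16_heckeCohHom_heckeU` : for `q ∣ N`, `(τ X_q χ) γ = ∑_i χ (g' i)` whenever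
  `heckeMatrix q i * γ = g' i * heckeMatrix q (σ i)`
* `S16_exists_heckeCoh` : the existential package.
-/

set_option autoImplicit false

open UpperHalfPlane hiding I
open Function Complex Filter Topology
open CongruenceSubgroup Matrix.SpecialLinearGroup
open ModularCurve ModularCurve.Period
open scoped Real Manifold MatrixGroups ModularForm
open P2MW.S_ModularForm_heckeT_slash_eq_self_of_mem_Gamma0.ModularForm.HeckeSlashInvariance
open ModularForm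

namespace Fermat.Agent.S16

open Fermat.Agent.S21 Fermat.Agent.S22

section periods

variable {N : ℕ} [NeZero N]

/-- The period map in terms of the weight-`2` period `per 0`. -/
theorem S16_periodMap_eq_per (f : CuspForm (Gamma0 N) 2) (γ : Gamma0 N) (x y : ℂ) :
    periodMap N f (Additive.ofMul γ) = per 0 ⇑f (mapGL ℝ (γ : SL(2, ℤ))) x y := by
  rw [S21_periodMap_apply]
  simp only [per, S21_J_zero]
  rfl

/-- Abstract Hecke compatibility of the period map. -/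
theorem S16_periodMap_sum_slash (f Tf : CuspForm (Gamma0 N) 2)
    {ι : Type*} [Fintype ι] (R : ι → GL (Fin 2) ℝ) (hR10 : ∀ i, R i 1 0 = 0)
    (hRdet : ∀ i, 0 < (R i).val.det) (hT : ⇑Tf = ∑ i, ⇑f ∣[(2 : ℤ)] R i)
    (σ : Equiv.Perm ι) (γ : Gamma0 N) (g' : ι → Gamma0 N)
    (hmul : ∀ i, R i * mapGL ℝ (γ : SL(2, ℤ)) = mapGL ℝ (g' i : SL(2, ℤ)) * R (σ i)) :
    periodMap N Tf (Additive.ofMul γ) = ∑ i, periodMap N f (Additive.ofMul (g' i)) := by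
  rw [S16_periodMap_eq_per Tf γ 0 0, hT,
    per_sum_slash (w := 0) (k := 2) (by norm_num) (S21_hasTower f) R hR10 hRdet σ _
      (fun i => mapGL ℝ (g' i : SL(2, ℤ))) hmul (fun i => det_mapGL_pos _)
      (fun i => S21_slash_eq f (g' i).2) 0 0]
  refine Finset.sum_congr rfl fun i _ => ?_
  rw [S16_periodMap_eq_per f (g' i)]

theorem S16_J_mul_J : UpperHalfPlane.J * UpperHalfPlane.J = 1 := by
  rw [← sq, UpperHalfPlane.J_sq]

/-- `J · γ^j = γ · J`. -/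
theorem S16_J_mul_mapGL_jConj (γ : SL(2, ℤ)) :
    UpperHalfPlane.J * mapGL ℝ (jConjSL γ) = mapGL ℝ γ * UpperHalfPlane.J := by
  have h := S21_mapGL_jConj_mul_J (jConjSL γ)
  rw [jConjSL_jConjSL] at h
  exact h.symm

theorem S16_conjJ_entry10 (A : GL (Fin 2) ℝ) (h : A 1 0 = 0) :
    (UpperHalfPlane.J * A * UpperHalfPlane.J) 1 0 = 0 := by
  have h' : A.val 1 0 = 0 := h
  show (UpperHalfPlane.J.val * A.val * UpperHalfPlane.J.val) 1 0 = 0
  rw [UpperHalfPlane.val_J, Matrix.eta_fin_two A.val, h']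
  simp [Matrix.mul_apply, Fin.sum_univ_two]

theorem S16_conjJ_det (A : GL (Fin 2) ℝ) :
    (UpperHalfPlane.J * A * UpperHalfPlane.J).val.det = A.val.det := by
  simp only [Units.val_mul, Matrix.det_mul, UpperHalfPlane.val_J, Matrix.det_fin_two_of]
  ring

/-- Abstract Hecke compatibility of the period map, `J`-conjugated. -/
theorem S16_periodMap_sum_slash_jConj (f Tf : CuspForm (Gamma0 N) 2)
    {ι : Type*} [Fintype ι] (R : ι → GL (Fin 2) ℝ) (hR10 : ∀ i, R i 1 0 = 0)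
    (hRdet : ∀ i, 0 < (R i).val.det) (hT : ⇑Tf = ∑ i, ⇑f ∣[(2 : ℤ)] R i)
    (ν : Equiv.Perm ι) (t : ι → Gamma0 N)
    (hJ : ∀ i, UpperHalfPlane.J * R i * UpperHalfPlane.J
      = mapGL ℝ (t i : SL(2, ℤ)) * R (ν i))
    (σ : Equiv.Perm ι) (γ : Gamma0 N) (g' : ι → Gamma0 N)
    (hmul : ∀ i, R i * mapGL ℝ (γ : SL(2, ℤ)) = mapGL ℝ (g' i : SL(2, ℤ)) * R (σ i)) :
    periodMap N Tf (Additive.ofMul (jConjGamma0 N γ))
      = ∑ i, periodMap N f (Additive.ofMul (jConjGamma0 N (g' i))) := by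
  refine S16_periodMap_sum_slash f Tf (fun i => UpperHalfPlane.J * R i * UpperHalfPlane.J)
    (fun i => S16_conjJ_entry10 _ (hR10 i)) (fun i => by rw [S16_conjJ_det]; exact hRdet i) ?_
    σ (jConjGamma0 N γ) (fun i => jConjGamma0 N (g' i)) ?_
  · rw [hT]
    have h1 : ∀ i, ⇑f ∣[(2 : ℤ)] (UpperHalfPlane.J * R i * UpperHalfPlane.J)
        = ⇑f ∣[(2 : ℤ)] R (ν i) := by
      intro i
      rw [hJ i, SlashAction.slash_mul, S21_slash_eq f (t i).2]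
    simp only [h1]
    exact (Equiv.sum_comp ν (fun i => ⇑f ∣[(2 : ℤ)] R i)).symm
  · intro i
    simp only [jConjGamma0_coe]
    calc UpperHalfPlane.J * R i * UpperHalfPlane.J * mapGL ℝ (jConjSL ↑γ)
        = UpperHalfPlane.J * R i * (UpperHalfPlane.J * mapGL ℝ (jConjSL ↑γ)) := by
          simp only [mul_assoc]
      _ = UpperHalfPlane.J * (R i * mapGL ℝ (γ : SL(2, ℤ))) * UpperHalfPlane.J := by
          rw [S16_J_mul_mapGL_jConj]; simp only [mul_assoc]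
      _ = (UpperHalfPlane.J * mapGL ℝ (g' i : SL(2, ℤ))) * R (σ i) * UpperHalfPlane.J := by
          rw [hmul i]; simp only [mul_assoc]
      _ = mapGL ℝ (jConjSL ↑(g' i)) * (UpperHalfPlane.J * R (σ i) * UpperHalfPlane.J) := by
          rw [← S21_mapGL_jConj_mul_J]; simp only [mul_assoc]

/-- Abstract Hecke compatibility of `periodHomPair`. -/
theorem S16_periodHomPair_sum_slash (f g Tf Tg : CuspForm (Gamma0 N) 2)
    {ι : Type*} [Fintype ι] (R : ι → GL (Fin 2) ℝ) (hR10 : ∀ i, R i 1 0 = 0)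
    (hRdet : ∀ i, 0 < (R i).val.det) (hTf : ⇑Tf = ∑ i, ⇑f ∣[(2 : ℤ)] R i)
    (hTg : ⇑Tg = ∑ i, ⇑g ∣[(2 : ℤ)] R i)
    (ν : Equiv.Perm ι) (t : ι → Gamma0 N)
    (hJ : ∀ i, UpperHalfPlane.J * R i * UpperHalfPlane.J
      = mapGL ℝ (t i : SL(2, ℤ)) * R (ν i))
    (σ : Equiv.Perm ι) (γ : Gamma0 N) (g' : ι → Gamma0 N)
    (hmul : ∀ i, R i * mapGL ℝ (γ : SL(2, ℤ)) = mapGL ℝ (g' i : SL(2, ℤ)) * R (σ i)) :
    periodHomPair N (Tf, Tg) (Additive.ofMul γ)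
      = ∑ i, periodHomPair N (f, g) (Additive.ofMul (g' i)) := by
  obtain ⟨pml, hpml, hdef⟩ := periodHomPair_def N (S21_existsPeriodMapLinear N)
  simp only [S21_periodHomPair_apply_eval pml hpml hdef]
  rw [S16_periodMap_sum_slash f Tf R hR10 hRdet hTf σ γ g' hmul,
    S16_periodMap_sum_slash g Tg R hR10 hRdet hTg σ γ g' hmul,
    S16_periodMap_sum_slash_jConj f Tf R hR10 hRdet hTf ν t hJ σ γ g' hmul,
    S16_periodMap_sum_slash_jConj g Tg R hR10 hRdet hTg ν t hJ σ γ g' hmul]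
  simp only [Finset.sum_add_distrib, Finset.sum_sub_distrib]

end periods

section reps

/-- The translation `T^m`, as an element of `Γ₀(N)`. -/
def S16_transl (N : ℕ) (m : ℤ) : Gamma0 N :=
  ⟨ModularGroup.T ^ m, by
    rw [Gamma0_mem, ModularGroup.coe_T_zpow]
    simp⟩

theorem S16_transl_coe (N : ℕ) (m : ℤ) :
    ((S16_transl N m : Gamma0 N) : SL(2, ℤ)) = ModularGroup.T ^ m := rfl

/-- `J · (1 a; 0 q) · J = T^m · (1 b; 0 q)` when `-a = b + m q`. -/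
theorem S16_J_heckeMatrix_J {q : ℕ} (hq : q ≠ 0) (a b : ℕ) (m : ℤ)
    (h : -(a : ℤ) = b + m * q) :
    UpperHalfPlane.J * heckeMatrix q a * UpperHalfPlane.J
      = mapGL ℝ (ModularGroup.T ^ m) * heckeMatrix q b := by
  have h' : -(a : ℝ) = b + m * q := by exact_mod_cast h
  apply Units.ext
  simp only [Units.val_mul, UpperHalfPlane.val_J, val_heckeMatrix hq]
  rw [show ((mapGL ℝ (ModularGroup.T ^ m) : GL (Fin 2) ℝ) : Matrix (Fin 2) (Fin 2) ℝ)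
      = !![(1 : ℝ), (m : ℝ); 0, 1] from by
    ext i j
    rw [Matrix.SpecialLinearGroup.mapGL_coe_matrix]
    simp only [Matrix.SpecialLinearGroup.map_apply_coe, RingHom.mapMatrix_apply,
      ModularGroup.coe_T_zpow, Matrix.map_apply]
    fin_cases i <;> fin_cases j <;> simp]
  ext i j
  fin_cases i <;> fin_cases j <;> simp [Matrix.mul_apply, Fin.sum_univ_two]
  linarith

theorem S16_J_heckeDiagMatrix_J {q : ℕ} (hq : q ≠ 0) :
    UpperHalfPlane.J * heckeDiagMatrix q * UpperHalfPlane.J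
      = mapGL ℝ (ModularGroup.T ^ (0 : ℤ)) * heckeDiagMatrix q := by
  rw [zpow_zero, map_one, one_mul]
  apply Units.ext
  simp only [Units.val_mul, UpperHalfPlane.val_J, val_heckeDiagMatrix hq]
  ext i j
  fin_cases i <;> fin_cases j <;> simp [Matrix.mul_apply, Fin.sum_univ_two]

theorem S16_exists_transl_zmod (q : ℕ) [NeZero q] (j : ZMod q) :
    ∃ m : ℤ, -((j.val : ℕ) : ℤ) = ((-j).val : ℕ) + m * q := by
  have hdvd : (q : ℤ) ∣ ((j.val : ℕ) : ℤ) + (((-j).val : ℕ) : ℤ) := by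
    rw [← ZMod.intCast_zmod_eq_zero_iff_dvd]
    push_cast
    rw [ZMod.natCast_zmod_val, ZMod.natCast_zmod_val]
    ring
  obtain ⟨e, he⟩ := hdvd
  exact ⟨-e, by linear_combination -he⟩

/-- `J`-conjugation data for the `U_q`-representatives. -/
theorem S16_conjJ_heckeMatrix (N q : ℕ) [NeZero q] :
    ∃ t : ZMod q → Gamma0 N, ∀ i : ZMod q,
      UpperHalfPlane.J * heckeMatrix q i.val * UpperHalfPlane.J
        = mapGL ℝ (t i : SL(2, ℤ)) * heckeMatrix q ((Equiv.neg (ZMod q)) i).val := by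
  choose m hm using S16_exists_transl_zmod q
  exact ⟨fun i => S16_transl N (m i), fun i =>
    S16_J_heckeMatrix_J (NeZero.ne q) _ _ (m i) (hm i)⟩

/-- Negation on `ℙ¹(𝔽_ℓ)`, fixing `∞`. -/
def S16_negOnePoint (ℓ : ℕ) : Equiv.Perm (OnePoint (ZMod ℓ)) :=
  Equiv.optionCongr (Equiv.neg (ZMod ℓ))

/-- `J`-conjugation data for the `T_ℓ`-representatives. -/
theorem S16_conjJ_heckeRep (N ℓ : ℕ) [NeZero ℓ] :
    ∃ t : OnePoint (ZMod ℓ) → Gamma0 N, ∀ i : OnePoint (ZMod ℓ),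
      UpperHalfPlane.J * heckeRep ℓ i * UpperHalfPlane.J
        = mapGL ℝ (t i : SL(2, ℤ)) * heckeRep ℓ (S16_negOnePoint ℓ i) := by
  obtain ⟨t, ht⟩ := S16_conjJ_heckeMatrix N ℓ
  refine ⟨fun i => i.elim (S16_transl N 0) t, fun i => ?_⟩
  induction i using OnePoint.rec with
  | infty => exact S16_J_heckeDiagMatrix_J (NeZero.ne ℓ)
  | coe j => exact ht j

end reps

section hom

variable (N : ℕ) [NeZero N]

/-- The Eichler–Shimura isomorphism `S₂ × S₂ ≃ Hom_par(Γ₀(N), ℂ)` (S21). -/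
noncomputable def S16_esEquiv :
    (CuspForm (Gamma0 N) 2 × CuspForm (Gamma0 N) 2) ≃ₗ[ℂ] ↥(parabolicHoms ℂ (Gamma0 N) ℂ) :=
  (LinearEquiv.ofInjective (periodHomPair N) (Fermat.Agent.S21.result N).1).trans
    (LinearEquiv.ofEq _ _ (Fermat.Agent.S21.result N).2)

theorem S16_esEquiv_coe (x : CuspForm (Gamma0 N) 2 × CuspForm (Gamma0 N) 2) :
    ((S16_esEquiv N x : ↥(parabolicHoms ℂ (Gamma0 N) ℂ)) : Additive (Gamma0 N) →+ ℂ)
      = periodHomPair N x := rfl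

/-- Transport of endomorphisms of `S₂` to `Hom_par`: `T ↦ Φ ∘ (T × T) ∘ Φ⁻¹`. -/
noncomputable def S16_endHom :
    Module.End ℂ (CuspForm (Gamma0 N) 2) →+* Module.End ℂ ↥(parabolicHoms ℂ (Gamma0 N) ℂ) :=
  (S16_esEquiv N).conjRingEquiv.toRingHom.comp
    ((LinearMap.prodMapRingHom ℂ (CuspForm (Gamma0 N) 2) (CuspForm (Gamma0 N) 2)).comp
      ((RingHom.id _).prod (RingHom.id _)))

theorem S16_endHom_apply (T : Module.End ℂ (CuspForm (Gamma0 N) 2))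
    (f g : CuspForm (Gamma0 N) 2) :
    S16_endHom N T (S16_esEquiv N (f, g)) = S16_esEquiv N (T f, T g) := by
  simp [S16_endHom]

/-- **The Hecke action on `Hom_par(Γ₀(N), ℂ)`.** -/
noncomputable def S16_heckeCohHom :
    ModularCurve.HeckeAlg →+* Module.End ℂ ↥(parabolicHoms ℂ (Gamma0 N) ℂ) :=
  (S16_endHom N).comp
    ((CuspForm.heckeAlgebra N 2 ∅).val.toRingHom.comp (CuspForm.heckeEvalForms N 2))

theorem S16_heckeCohHom_apply (r : ModularCurve.HeckeAlg) :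
    S16_heckeCohHom N r
      = S16_endHom N ((CuspForm.heckeEvalForms N 2 r : CuspForm.heckeAlgebra N 2 ∅) :
          Module.End ℂ (CuspForm (Gamma0 N) 2)) := rfl

theorem S16_heckeCohHom_eq_zero (r : ModularCurve.HeckeAlg)
    (h : ((CuspForm.heckeEvalForms N 2 r : CuspForm.heckeAlgebra N 2 ∅) :
      Module.End ℂ (CuspForm (Gamma0 N) 2)) = 0) :
    S16_heckeCohHom N r = 0 := by
  rw [S16_heckeCohHom_apply, h, map_zero]

variable {N}

theorem S16_heckeCohHom_heckeT {ℓ : ℕ} [Fact ℓ.Prime] (hℓ : ¬ ℓ ∣ N)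
    (χ : ↥(parabolicHoms ℂ (Gamma0 N) ℂ)) (γ : Gamma0 N)
    (σ : Equiv.Perm (OnePoint (ZMod ℓ))) (g' : OnePoint (ZMod ℓ) → Gamma0 N)
    (hmul : ∀ i, heckeRep ℓ i * mapGL ℝ (γ : SL(2, ℤ))
      = mapGL ℝ (g' i : SL(2, ℤ)) * heckeRep ℓ (σ i)) :
    ((S16_heckeCohHom N (ModularCurve.heckeGen ⟨ℓ, Fact.out⟩) χ :
        ↥(parabolicHoms ℂ (Gamma0 N) ℂ)) : Additive (Gamma0 N) →+ ℂ) (Additive.ofMul γ)
      = ∑ i, (χ : Additive (Gamma0 N) →+ ℂ) (Additive.ofMul (g' i)) := by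
  obtain ⟨⟨f, g⟩, rfl⟩ := (S16_esEquiv N).surjective χ
  have hp : ℓ.Prime := Fact.out
  have hT : S16_heckeCohHom N (ModularCurve.heckeGen ⟨ℓ, Fact.out⟩)
      = S16_endHom N (CuspForm.heckeTLin 2 hp hℓ) := by
    rw [S16_heckeCohHom_apply,
      CuspForm.heckeEvalForms_heckeGen_of_not_dvd (N := N) (k := 2) (ℓ := ⟨ℓ, Fact.out⟩) hℓ]
    rfl
  rw [hT, S16_endHom_apply]
  simp only [S16_esEquiv_coe]
  obtain ⟨t, ht⟩ := S16_conjJ_heckeRep N ℓ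
  exact S16_periodHomPair_sum_slash f g _ _ (heckeRep ℓ) (heckeRep_tri hp.ne_zero)
    (heckeRep_det_pos ℓ)
    (by rw [CuspForm.coe_heckeTLin_apply, heckeT_eq_sum_onePoint])
    (by rw [CuspForm.coe_heckeTLin_apply, heckeT_eq_sum_onePoint])
    (S16_negOnePoint ℓ) t ht σ γ g' hmul

theorem S16_heckeCohHom_heckeU {q : ℕ} [Fact q.Prime] (hq : q ∣ N)
    (χ : ↥(parabolicHoms ℂ (Gamma0 N) ℂ)) (γ : Gamma0 N)
    (σ : Equiv.Perm (ZMod q)) (g' : ZMod q → Gamma0 N)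
    (hmul : ∀ i, heckeMatrix q i.val * mapGL ℝ (γ : SL(2, ℤ))
      = mapGL ℝ (g' i : SL(2, ℤ)) * heckeMatrix q (σ i).val) :
    ((S16_heckeCohHom N (ModularCurve.heckeGen ⟨q, Fact.out⟩) χ :
        ↥(parabolicHoms ℂ (Gamma0 N) ℂ)) : Additive (Gamma0 N) →+ ℂ) (Additive.ofMul γ)
      = ∑ i, (χ : Additive (Gamma0 N) →+ ℂ) (Additive.ofMul (g' i)) := by
  obtain ⟨⟨f, g⟩, rfl⟩ := (S16_esEquiv N).surjective χ
  have hp : q.Prime := Fact.out
  have hT : S16_heckeCohHom N (ModularCurve.heckeGen ⟨q, Fact.out⟩)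
      = S16_endHom N (CuspForm.heckeULin 2 hq) := by
    rw [S16_heckeCohHom_apply,
      CuspForm.heckeEvalForms_heckeGen_of_dvd (N := N) (k := 2) (q := ⟨q, Fact.out⟩) hq]
    rfl
  rw [hT, S16_endHom_apply]
  simp only [S16_esEquiv_coe]
  obtain ⟨t, ht⟩ := S16_conjJ_heckeMatrix N q
  exact S16_periodHomPair_sum_slash f g _ _ (fun i : ZMod q => heckeMatrix q i.val)
    (fun i => heckeMatrix_tri hp.ne_zero _)
    (fun i => val_det_pos_of_det_pos (det_heckeMatrix_pos q _))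
    (by rw [CuspForm.coe_heckeULin_apply, heckeU_eq_sum_zmod])
    (by rw [CuspForm.coe_heckeULin_apply, heckeU_eq_sum_zmod])
    (Equiv.neg (ZMod q)) t ht σ γ g' hmul

/-- Form of `S16_heckeCohHom_heckeT` for `ℓ : Nat.Primes`. -/
theorem S16_heckeCohHom_heckeT_primes (ℓ : Nat.Primes) [Fact (ℓ : ℕ).Prime] (hℓ : ¬ (ℓ : ℕ) ∣ N)
    (χ : ↥(parabolicHoms ℂ (Gamma0 N) ℂ)) (γ : Gamma0 N)
    (σ : Equiv.Perm (OnePoint (ZMod ℓ))) (g' : OnePoint (ZMod ℓ) → Gamma0 N)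
    (hmul : ∀ i, heckeRep ℓ i * mapGL ℝ (γ : SL(2, ℤ))
      = mapGL ℝ (g' i : SL(2, ℤ)) * heckeRep ℓ (σ i)) :
    ((S16_heckeCohHom N (ModularCurve.heckeGen ℓ) χ :
        ↥(parabolicHoms ℂ (Gamma0 N) ℂ)) : Additive (Gamma0 N) →+ ℂ) (Additive.ofMul γ)
      = ∑ i, (χ : Additive (Gamma0 N) →+ ℂ) (Additive.ofMul (g' i)) :=
  S16_heckeCohHom_heckeT hℓ χ γ σ g' hmul

/-- Form of `S16_heckeCohHom_heckeU` for `q : Nat.Primes`. -/
theorem S16_heckeCohHom_heckeU_primes (q : Nat.Primes) [Fact (q : ℕ).Prime] (hq : (q : ℕ) ∣ N)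
    (χ : ↥(parabolicHoms ℂ (Gamma0 N) ℂ)) (γ : Gamma0 N)
    (σ : Equiv.Perm (ZMod q)) (g' : ZMod q → Gamma0 N)
    (hmul : ∀ i, heckeMatrix q i.val * mapGL ℝ (γ : SL(2, ℤ))
      = mapGL ℝ (g' i : SL(2, ℤ)) * heckeMatrix q (σ i).val) :
    ((S16_heckeCohHom N (ModularCurve.heckeGen q) χ :
        ↥(parabolicHoms ℂ (Gamma0 N) ℂ)) : Additive (Gamma0 N) →+ ℂ) (Additive.ofMul γ)
      = ∑ i, (χ : Additive (Gamma0 N) →+ ℂ) (Additive.ofMul (g' i)) :=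
  S16_heckeCohHom_heckeU hq χ γ σ g' hmul

omit [NeZero N] in
/-- Existence of the coset data for `T_ℓ` (from `heckeRep_mul`). -/
theorem S16_exists_heckeT_data {ℓ : ℕ} [Fact ℓ.Prime] (hℓ : ¬ ℓ ∣ N) (γ : Gamma0 N) :
    ∃ (σ : Equiv.Perm (OnePoint (ZMod ℓ))) (g' : OnePoint (ZMod ℓ) → Gamma0 N),
      ∀ i, heckeRep ℓ i * mapGL ℝ (γ : SL(2, ℤ))
        = mapGL ℝ (g' i : SL(2, ℤ)) * heckeRep ℓ (σ i) := by
  have hcN : (N : ℤ) ∣ (γ : SL(2, ℤ)) 1 0 :=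
    (ZMod.intCast_zmod_eq_zero_iff_dvd _ _).mp (Gamma0_mem.mp γ.2)
  choose g' hg'N hg'mul using heckeRep_mul hℓ (γ : SL(2, ℤ)) hcN
  exact ⟨MulAction.toPerm (redMatrix ℓ (γ : SL(2, ℤ))),
    fun i => ⟨g' i, Gamma0_mem.mpr ((ZMod.intCast_zmod_eq_zero_iff_dvd _ _).mpr (hg'N i))⟩,
    fun i => hg'mul i⟩

omit [NeZero N] in
/-- Existence of the coset data for `U_q` (from `heckeMatrix_mul_of_dvd`). -/
theorem S16_exists_heckeU_data {q : ℕ} [NeZero q] (hq : q ∣ N) (γ : Gamma0 N) :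
    ∃ (σ : Equiv.Perm (ZMod q)) (g' : ZMod q → Gamma0 N),
      ∀ i, heckeMatrix q i.val * mapGL ℝ (γ : SL(2, ℤ))
        = mapGL ℝ (g' i : SL(2, ℤ)) * heckeMatrix q (σ i).val := by
  have hcN : (N : ℤ) ∣ (γ : SL(2, ℤ)) 1 0 :=
    (ZMod.intCast_zmod_eq_zero_iff_dvd _ _).mp (Gamma0_mem.mp γ.2)
  have hc : (q : ℤ) ∣ (γ : SL(2, ℤ)) 1 0 := (Int.natCast_dvd_natCast.mpr hq).trans hcN
  have hc0 : (((γ : SL(2, ℤ)) 1 0 : ℤ) : ZMod q) = 0 :=
    (ZMod.intCast_zmod_eq_zero_iff_dvd _ _).mpr hc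
  choose g' hg'N hg'mul using heckeMatrix_mul_of_dvd (γ : SL(2, ℤ)) hc
  refine ⟨affinePerm (γ : SL(2, ℤ)) hc0, fun i => ⟨g' i, ?_⟩, fun i => hg'mul i⟩
  rw [Gamma0_mem, hg'N i]
  push_cast
  rw [Gamma0_mem.mp γ.2, mul_zero]

variable (N)

/-- **LB3.** The Hecke action on the parabolic homomorphisms, as an existential package. -/
theorem S16_exists_heckeCoh :
    ∃ τ : ModularCurve.HeckeAlg →+* Module.End ℂ ↥(parabolicHoms ℂ (Gamma0 N) ℂ),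
      (∀ r : ModularCurve.HeckeAlg,
        ((CuspForm.heckeEvalForms N 2 r : CuspForm.heckeAlgebra N 2 ∅) :
          Module.End ℂ (CuspForm (Gamma0 N) 2)) = 0 → τ r = 0) ∧
      (∀ (ℓ : ℕ) [Fact ℓ.Prime] (_ : ¬ ℓ ∣ N) (χ : ↥(parabolicHoms ℂ (Gamma0 N) ℂ))
        (γ : Gamma0 N) (σ : Equiv.Perm (OnePoint (ZMod ℓ))) (g' : OnePoint (ZMod ℓ) → Gamma0 N)
        (_ : ∀ i, heckeRep ℓ i * mapGL ℝ (γ : SL(2, ℤ))
          = mapGL ℝ (g' i : SL(2, ℤ)) * heckeRep ℓ (σ i)),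
        ((τ (ModularCurve.heckeGen ⟨ℓ, Fact.out⟩) χ :
            ↥(parabolicHoms ℂ (Gamma0 N) ℂ)) : Additive (Gamma0 N) →+ ℂ) (Additive.ofMul γ)
          = ∑ i, (χ : Additive (Gamma0 N) →+ ℂ) (Additive.ofMul (g' i))) ∧
      (∀ (q : ℕ) [Fact q.Prime] (_ : q ∣ N) (χ : ↥(parabolicHoms ℂ (Gamma0 N) ℂ))
        (γ : Gamma0 N) (σ : Equiv.Perm (ZMod q)) (g' : ZMod q → Gamma0 N)
        (_ : ∀ i, heckeMatrix q i.val * mapGL ℝ (γ : SL(2, ℤ))
          = mapGL ℝ (g' i : SL(2, ℤ)) * heckeMatrix q (σ i).val),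
        ((τ (ModularCurve.heckeGen ⟨q, Fact.out⟩) χ :
            ↥(parabolicHoms ℂ (Gamma0 N) ℂ)) : Additive (Gamma0 N) →+ ℂ) (Additive.ofMul γ)
          = ∑ i, (χ : Additive (Gamma0 N) →+ ℂ) (Additive.ofMul (g' i))) :=
  ⟨S16_heckeCohHom N, S16_heckeCohHom_eq_zero N,
    fun _ _ hℓ χ γ σ g' hmul => S16_heckeCohHom_heckeT hℓ χ γ σ g' hmul,
    fun _ _ hq χ γ σ g' hmul => S16_heckeCohHom_heckeU hq χ γ σ g' hmul⟩

end hom

end Fermat.Agent.S16
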