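import Mathlib
import Fermat.Agent.S21.PermLinAlg

/-!
# Linear algebra on permutation modules over an arbitrary field (S16, lower bound, package LB1)

This is the characteristic-free version of `Fermat.Agent.S21.PermLinAlg`.  For a finite `G`-set `X`
and a field `F` we study `X → F`.  In characteristic `2` or `3` the spaces of "anti-invariant" and
"tri-zero" functions have to be cut down by the condition that the function vanishes at the fixed
points (this is the condition "vanish on elliptic elements" on the group side).
-/

set_option autoImplicit false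

namespace Fermat.Agent.S16

open Module

section Pull

variable (F : Type*) [Field F] {G X : Type*} [Group G] [MulAction G X]

/-- Pull back a function along the action of `g`: `(pullF g m) x = m (g • x)`. -/
def pullF (g : G) : (X → F) →ₗ[F] (X → F) := LinearMap.funLeft F F (fun x => g • x)

variable {F}

@[simp] lemma pullF_apply (g : G) (m : X → F) (x : X) : pullF F g m x = m (g • x) := rfl

lemma pullF_one : pullF F (1 : G) = (LinearMap.id : (X → F) →ₗ[F] (X → F)) :=
  LinearMap.ext fun m => funext fun x => by simp

lemma pullF_mul (g h : G) : pullF F (X := X) (g * h) = (pullF F h).comp (pullF F g) :=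
  LinearMap.ext fun m => funext fun x => by simp [mul_smul]

end Pull

section Orbits

variable (F : Type*) [Field F] {G X : Type*} [Group G] [MulAction G X]

/-- The "coboundaries" `m ∘ T − m`. -/
def cobTF (T : G) : Submodule F (X → F) := LinearMap.range (pullF F T - LinearMap.id)

/-- The invariant functions. -/
def invF (T : G) : Submodule F (X → F) := LinearMap.ker (pullF F T - LinearMap.id)

variable {F}

lemma mem_invF {T : G} {m : X → F} : m ∈ invF F T ↔ ∀ x, m (T • x) = m x := by
  simp only [invF, LinearMap.mem_ker]
  constructor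
  · intro h x
    have := congrFun h x
    simpa [sub_eq_zero] using this
  · intro h
    funext x
    simp [h x]

omit [Field F] in
lemma invariantF_of_mem_zpowers {T : G} {m : X → F} (hm : ∀ x, m (T • x) = m x)
    {h : G} (hh : h ∈ Subgroup.zpowers T) (y : X) : m (h • y) = m y := by
  obtain ⟨k, rfl⟩ := Subgroup.mem_zpowers_iff.mp hh
  clear hh
  induction k using Int.induction_on generalizing y with
  | zero => simp
  | succ n ih =>
    rw [zpow_add_one, mul_smul, ih, hm]
  | pred n ih =>
    rw [zpow_sub_one, mul_smul, ih]
    have := hm (T⁻¹ • y)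
    rw [smul_inv_smul] at this
    exact this.symm

variable (F)
variable [Fintype X]

/-- The invariants of `T` have dimension the number of `T`-orbits. -/
theorem finrank_invF (T : G) :
    finrank F (invF F (X := X) T)
      = Nat.card (MulAction.orbitRel.Quotient (Subgroup.zpowers T) X) := by
  classical
  set Ω := MulAction.orbitRel.Quotient (Subgroup.zpowers T) X with hΩ
  let _ : Fintype Ω := Fintype.ofFinite Ω
  let mk : X → Ω := Quotient.mk''
  have hmk : Function.Surjective mk := Quotient.mk''_surjective
  set Φ : (Ω → F) →ₗ[F] (X → F) := LinearMap.funLeft F F mk with hΦ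
  have hinj : Function.Injective Φ := LinearMap.funLeft_injective_of_surjective F F mk hmk
  have hrange : LinearMap.range Φ = invF F (X := X) T := by
    apply le_antisymm
    · rintro _ ⟨f, rfl⟩
      rw [mem_invF]
      intro x
      simp only [hΦ, LinearMap.funLeft_apply]
      have : mk (T • x) = mk x := by
        apply Quotient.sound'
        exact ⟨⟨T, Subgroup.mem_zpowers T⟩, rfl⟩
      rw [this]
    · intro m hm
      rw [mem_invF] at hm
      refine ⟨Quotient.lift m ?_, ?_⟩
      · rintro a b ⟨⟨h, hh⟩, rfl⟩
        exact invariantF_of_mem_zpowers hm hh b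
      · funext x
        rfl
  rw [← hrange, LinearMap.finrank_range_of_inj hinj, finrank_fintype_fun_eq_card,
    Nat.card_eq_fintype_card]

theorem finrank_cobTF_add_card_orbits (T : G) :
    finrank F (cobTF F (X := X) T)
      + Nat.card (MulAction.orbitRel.Quotient (Subgroup.zpowers T) X) = Fintype.card X := by
  have h := LinearMap.finrank_range_add_finrank_ker (pullF F (X := X) T - LinearMap.id)
  rw [finrank_fintype_fun_eq_card] at h
  rw [← finrank_invF F T]
  exact h

end Orbits

section Reps

variable {G X : Type*} [Group G] [MulAction G X]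

/-- A chosen representative of the `⟨T⟩`-orbit of `x`. -/
noncomputable def orbRep (T : G) (x : X) : X :=
  Quotient.out (Quotient.mk'' x : MulAction.orbitRel.Quotient (Subgroup.zpowers T) X)

lemma orbRep_smul (T : G) (x : X) : orbRep T (T • x) = orbRep T x := by
  unfold orbRep
  have : (Quotient.mk'' (T • x) : MulAction.orbitRel.Quotient (Subgroup.zpowers T) X)
      = Quotient.mk'' x := by
    apply Quotient.sound'
    exact ⟨⟨T, Subgroup.mem_zpowers T⟩, rfl⟩
  rw [this]

lemma orbRep_mem (T : G) (x : X) : ∃ k : ℤ, orbRep T x = T ^ k • x := by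
  have h1 : (Quotient.mk'' (orbRep T x) : MulAction.orbitRel.Quotient (Subgroup.zpowers T) X)
      = Quotient.mk'' x := Quotient.out_eq' _
  have h2 := Quotient.exact' h1
  obtain ⟨⟨g, hg⟩, hgx⟩ := h2
  obtain ⟨k, rfl⟩ := Subgroup.mem_zpowers_iff.mp hg
  exact ⟨k, hgx.symm⟩

/-- For an element acting as an involution the representative is `x` or `S • x`. -/
lemma orbRep_two {S : G} (hS : ∀ x : X, S • S • x = x) (x : X) :
    orbRep S x = x ∨ orbRep S x = S • x := by
  obtain ⟨k, hk⟩ := orbRep_mem S x
  have key : ∀ n : ℕ, ∀ y : X, S ^ n • y = y ∨ S ^ n • y = S • y := by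
    intro n
    induction n with
    | zero => intro y; left; simp
    | succ n ih =>
      intro y
      rw [pow_succ, mul_smul]
      rcases ih (S • y) with h | h
      · right; exact h
      · left; rw [h, hS]
  have keyinv : ∀ y : X, S⁻¹ • y = S • y := by
    intro y
    rw [inv_smul_eq_iff, hS]
  rw [hk]
  obtain ⟨n, rfl | rfl⟩ := Int.eq_nat_or_neg k
  · simpa using key n x
  · rw [zpow_neg, zpow_natCast, ← inv_pow]
    have key' : ∀ n : ℕ, ∀ y : X, S⁻¹ ^ n • y = y ∨ S⁻¹ ^ n • y = S • y := by
      intro n
      induction n with
      | zero => intro y; left; simp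
      | succ n ih =>
        intro y
        rw [pow_succ, mul_smul, keyinv]
        rcases ih (S • y) with h | h
        · right; exact h
        · left; rw [h, hS]
    exact key' n x

/-- For an element acting with order dividing 3 the representative is `x`, `U • x` or
`U • U • x`. -/
lemma orbRep_three {U : G} (hU : ∀ x : X, U • U • U • x = x) (x : X) :
    orbRep U x = x ∨ orbRep U x = U • x ∨ orbRep U x = U • U • x := by
  obtain ⟨k, hk⟩ := orbRep_mem U x
  have key : ∀ n : ℕ, ∀ y : X, U ^ n • y = y ∨ U ^ n • y = U • y ∨ U ^ n • y = U • U • y := by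
    intro n
    induction n with
    | zero => intro y; left; simp
    | succ n ih =>
      intro y
      rw [pow_succ, mul_smul]
      rcases ih (U • y) with h | h | h
      · right; left; exact h
      · right; right; exact h
      · left; rw [h, hU]
  have keyinv : ∀ y : X, U⁻¹ • y = U • U • y := by
    intro y
    rw [inv_smul_eq_iff, hU]
  rw [hk]
  obtain ⟨n, rfl | rfl⟩ := Int.eq_nat_or_neg k
  · simpa using key n x
  · rw [zpow_neg, zpow_natCast, ← inv_pow]
    have key' : ∀ n : ℕ, ∀ y : X,
        U⁻¹ ^ n • y = y ∨ U⁻¹ ^ n • y = U • y ∨ U⁻¹ ^ n • y = U • U • y := by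
      intro n
      induction n with
      | zero => intro y; left; simp
      | succ n ih =>
        intro y
        rw [pow_succ, mul_smul, keyinv]
        rcases ih (U • U • y) with h | h | h
        · right; right; exact h
        · left; rw [h, hU]
        · right; left; rw [h, hU]
    exact key' n x

end Reps


section Involution

variable (F : Type*) [Field F] {G X : Type*} [Group G] [MulAction G X]

/-- Anti-invariant functions (for an element acting as an involution) vanishing at the fixed
points. -/
def antiInvF (S : G) : Submodule F (X → F) where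
  carrier := {m | ∀ x, m x + m (S • x) = 0 ∧ (S • x = x → m x = 0)}
  zero_mem' := fun x => ⟨by simp, fun _ => rfl⟩
  add_mem' := by
    intro a b ha hb x
    refine ⟨?_, fun hx => ?_⟩
    · have h1 := (ha x).1
      have h2 := (hb x).1
      simp only [Pi.add_apply]
      linear_combination h1 + h2
    · simp only [Pi.add_apply, (ha x).2 hx, (hb x).2 hx, add_zero]
  smul_mem' := by
    intro c a ha x
    refine ⟨?_, fun hx => ?_⟩
    · have h1 := (ha x).1
      simp only [Pi.smul_apply, smul_eq_mul]
      linear_combination c * h1
    · simp only [Pi.smul_apply, (ha x).2 hx, smul_zero]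

variable {F}

lemma mem_antiInvF {S : G} {m : X → F} :
    m ∈ antiInvF F (X := X) S ↔ ∀ x, m x + m (S • x) = 0 ∧ (S • x = x → m x = 0) := Iff.rfl

variable (F)

open Classical in
/-- The symmetrisation map `m ↦ m + m ∘ S` (corrected at the fixed points). -/
noncomputable def symF (S : G) : (X → F) →ₗ[F] (X → F) where
  toFun m x := if S • x = x then m x else m x + m (S • x)
  map_add' a b := by
    funext x
    simp only [Pi.add_apply]
    split_ifs
    · rfl
    · ring
  map_smul' c a := by
    funext x
    simp only [Pi.smul_apply, smul_eq_mul, RingHom.id_apply]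
    split_ifs
    · rfl
    · ring

variable {F}

open Classical in
lemma symF_apply (S : G) (m : X → F) (x : X) :
    symF F S m x = if S • x = x then m x else m x + m (S • x) := rfl

lemma ker_symF (S : G) : LinearMap.ker (symF F (X := X) S) = antiInvF F S := by
  classical
  ext m
  rw [LinearMap.mem_ker, mem_antiInvF]
  constructor
  · intro h x
    have hx := congrFun h x
    rw [symF_apply] at hx
    by_cases hfix : S • x = x
    · rw [if_pos hfix] at hx
      simp only [Pi.zero_apply] at hx
      refine ⟨by rw [hfix, hx, add_zero], fun _ => hx⟩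
    · rw [if_neg hfix] at hx
      exact ⟨hx, fun h' => absurd h' hfix⟩
  · intro h
    funext x
    rw [symF_apply]
    by_cases hfix : S • x = x
    · rw [if_pos hfix]
      exact (h x).2 hfix
    · rw [if_neg hfix]
      exact (h x).1

lemma smul_fixed_iff_two {S : G} (hS : ∀ x : X, S • S • x = x) (x : X) :
    S • (S • x) = S • x ↔ S • x = x := by
  constructor
  · intro h
    rw [hS] at h
    exact h.symm
  · intro h
    rw [h, h]

lemma range_symF {S : G} (hS : ∀ x : X, S • S • x = x) :
    LinearMap.range (symF F (X := X) S) = invF F S := by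
  classical
  apply le_antisymm
  · rintro _ ⟨m, rfl⟩
    rw [mem_invF]
    intro x
    rw [symF_apply, symF_apply]
    by_cases hfix : S • x = x
    · rw [if_pos ((smul_fixed_iff_two hS x).mpr hfix), if_pos hfix, hfix]
    · rw [if_neg (fun h => hfix ((smul_fixed_iff_two hS x).mp h)), if_neg hfix, hS]
      ring
  · intro n hn
    rw [mem_invF] at hn
    refine ⟨fun x => if S • x = x then n x else if orbRep S x = x then n x else 0, ?_⟩
    funext x
    rw [symF_apply]
    by_cases hfix : S • x = x
    · rw [if_pos hfix, if_pos hfix]
    · have hfix' : ¬ S • (S • x) = S • x := fun h => hfix ((smul_fixed_iff_two hS x).mp h)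
      rw [if_neg hfix, if_neg hfix, if_neg hfix', orbRep_smul]
      rcases orbRep_two hS x with h | h
      · rw [if_pos h, if_neg (by rw [h]; exact fun h' => hfix h'.symm), add_zero]
      · rw [if_neg (by rw [h]; exact hfix), if_pos h, zero_add, hn]

variable (F)

theorem finrank_antiInvF_add_orbits [Fintype X] {S : G} (hS : ∀ x : X, S • S • x = x) :
    finrank F (antiInvF F (X := X) S)
      + Nat.card (MulAction.orbitRel.Quotient (Subgroup.zpowers S) X) = Fintype.card X := by
  have h := LinearMap.finrank_range_add_finrank_ker (symF F (X := X) S)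
  rw [finrank_fintype_fun_eq_card, range_symF hS, ker_symF, finrank_invF] at h
  omega

lemma antiInvF_complex_eq (S : G) :
    antiInvF ℂ (X := X) S = Fermat.Agent.S21.antiInv (X := X) S := by
  ext m
  rw [mem_antiInvF, Fermat.Agent.S21.mem_antiInv]
  constructor
  · intro h x
    exact (h x).1
  · intro h x
    refine ⟨h x, fun hx => ?_⟩
    have := h x
    rw [hx] at this
    have h2 : (2 : ℂ) * m x = 0 := by linear_combination this
    rcases mul_eq_zero.mp h2 with h3 | h3
    · norm_num at h3
    · exact h3

/-- `2 dim(antiInvF) + #fixed points = #X`, in any characteristic. -/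
theorem two_mul_finrank_antiInvF [Fintype X] [DecidableEq X] {S : G}
    (hS : ∀ x : X, S • S • x = x) :
    2 * finrank F (antiInvF F (X := X) S) + Fintype.card {x : X // S • x = x}
      = Fintype.card X := by
  have h1 := finrank_antiInvF_add_orbits F (X := X) hS
  have h2 := finrank_antiInvF_add_orbits ℂ (X := X) hS
  have h3 := Fermat.Agent.S21.two_mul_finrank_antiInv (X := X) S hS
  rw [antiInvF_complex_eq] at h2
  omega

end Involution

section OrderThree

variable (F : Type*) [Field F] {G X : Type*} [Group G] [MulAction G X]

/-- Functions whose sum over `x, U x, U² x` vanishes and which vanish at the fixed points. -/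
def triZeroF (U : G) : Submodule F (X → F) where
  carrier := {m | ∀ x, m x + m (U • x) + m (U • U • x) = 0 ∧ (U • x = x → m x = 0)}
  zero_mem' := fun x => ⟨by simp, fun _ => rfl⟩
  add_mem' := by
    intro a b ha hb x
    refine ⟨?_, fun hx => ?_⟩
    · have h1 := (ha x).1
      have h2 := (hb x).1
      simp only [Pi.add_apply]
      linear_combination h1 + h2
    · simp only [Pi.add_apply, (ha x).2 hx, (hb x).2 hx, add_zero]
  smul_mem' := by
    intro c a ha x
    refine ⟨?_, fun hx => ?_⟩
    · have h1 := (ha x).1
      simp only [Pi.smul_apply, smul_eq_mul]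
      linear_combination c * h1
    · simp only [Pi.smul_apply, (ha x).2 hx, smul_zero]

variable {F}

lemma mem_triZeroF {U : G} {m : X → F} :
    m ∈ triZeroF F (X := X) U ↔
      ∀ x, m x + m (U • x) + m (U • U • x) = 0 ∧ (U • x = x → m x = 0) := Iff.rfl

variable (F)

open Classical in
/-- The symmetrisation map `m ↦ m + m ∘ U + m ∘ U²` (corrected at the fixed points). -/
noncomputable def symF3 (U : G) : (X → F) →ₗ[F] (X → F) where
  toFun m x := if U • x = x then m x else m x + m (U • x) + m (U • U • x)
  map_add' a b := by
    funext x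
    simp only [Pi.add_apply]
    split_ifs
    · rfl
    · ring
  map_smul' c a := by
    funext x
    simp only [Pi.smul_apply, smul_eq_mul, RingHom.id_apply]
    split_ifs
    · rfl
    · ring

variable {F}

open Classical in
lemma symF3_apply (U : G) (m : X → F) (x : X) :
    symF3 F U m x = if U • x = x then m x else m x + m (U • x) + m (U • U • x) := rfl

lemma ker_symF3 (U : G) : LinearMap.ker (symF3 F (X := X) U) = triZeroF F U := by
  classical
  ext m
  rw [LinearMap.mem_ker, mem_triZeroF]
  constructor
  · intro h x
    have hx := congrFun h x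
    rw [symF3_apply] at hx
    by_cases hfix : U • x = x
    · rw [if_pos hfix] at hx
      simp only [Pi.zero_apply] at hx
      refine ⟨by rw [hfix, hfix, hx]; simp, fun _ => hx⟩
    · rw [if_neg hfix] at hx
      exact ⟨hx, fun h' => absurd h' hfix⟩
  · intro h
    funext x
    rw [symF3_apply]
    by_cases hfix : U • x = x
    · rw [if_pos hfix]
      exact (h x).2 hfix
    · rw [if_neg hfix]
      exact (h x).1

lemma smul_fixed_iff_three {U : G} (hU : ∀ x : X, U • U • U • x = x) (x : X) :
    U • (U • x) = U • x ↔ U • x = x := by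
  constructor
  · intro h
    have h2 : U • U • U • x = U • U • x := congrArg (U • ·) h
    rw [hU, h] at h2
    exact h2.symm
  · intro h
    rw [h, h]

lemma smul_smul_ne_of_not_fixed {U : G} (hU : ∀ x : X, U • U • U • x = x) {x : X}
    (hx : ¬ U • x = x) : ¬ U • U • x = x := by
  intro h
  have h2 : U • U • U • x = U • x := congrArg (U • ·) h
  rw [hU] at h2
  exact hx h2.symm

lemma range_symF3 {U : G} (hU : ∀ x : X, U • U • U • x = x) :
    LinearMap.range (symF3 F (X := X) U) = invF F U := by
  classical
  apply le_antisymm
  · rintro _ ⟨m, rfl⟩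
    rw [mem_invF]
    intro x
    rw [symF3_apply, symF3_apply]
    by_cases hfix : U • x = x
    · rw [if_pos ((smul_fixed_iff_three hU x).mpr hfix), if_pos hfix, hfix]
    · rw [if_neg (fun h => hfix ((smul_fixed_iff_three hU x).mp h)), if_neg hfix, hU]
      ring
  · intro n hn
    rw [mem_invF] at hn
    refine ⟨fun x => if U • x = x then n x else if orbRep U x = x then n x else 0, ?_⟩
    funext x
    rw [symF3_apply]
    by_cases hfix : U • x = x
    · rw [if_pos hfix, if_pos hfix]
    · have hfix1 : ¬ U • (U • x) = U • x := fun h => hfix ((smul_fixed_iff_three hU x).mp h)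
      have hfix2 : ¬ U • (U • U • x) = U • U • x :=
        fun h => hfix1 ((smul_fixed_iff_three hU (U • x)).mp h)
      have hne2 : ¬ U • U • x = x := smul_smul_ne_of_not_fixed hU hfix
      rw [if_neg hfix, if_neg hfix, if_neg hfix1, if_neg hfix2, orbRep_smul, orbRep_smul,
        orbRep_smul]
      rcases orbRep_three hU x with h | h | h
      · rw [if_pos h, if_neg (by rw [h]; exact fun h' => hfix h'.symm),
          if_neg (by rw [h]; exact fun h' => hne2 h'.symm)]
        ring
      · rw [if_neg (by rw [h]; exact hfix), if_pos h,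
          if_neg (by rw [h]; exact fun h' => hfix1 h'.symm), hn]
        ring
      · rw [if_neg (by rw [h]; exact hne2), if_neg (by rw [h]; exact hfix1), if_pos h, hn, hn]
        ring

variable (F)

theorem finrank_triZeroF_add_orbits [Fintype X] {U : G} (hU : ∀ x : X, U • U • U • x = x) :
    finrank F (triZeroF F (X := X) U)
      + Nat.card (MulAction.orbitRel.Quotient (Subgroup.zpowers U) X) = Fintype.card X := by
  have h := LinearMap.finrank_range_add_finrank_ker (symF3 F (X := X) U)
  rw [finrank_fintype_fun_eq_card, range_symF3 hU, ker_symF3, finrank_invF] at h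
  omega

lemma triZeroF_complex_eq (U : G) :
    triZeroF ℂ (X := X) U = Fermat.Agent.S21.triZero (X := X) U := by
  ext m
  rw [mem_triZeroF, Fermat.Agent.S21.mem_triZero]
  constructor
  · intro h x
    exact (h x).1
  · intro h x
    refine ⟨h x, fun hx => ?_⟩
    have := h x
    rw [hx, hx] at this
    have h2 : (3 : ℂ) * m x = 0 := by linear_combination this
    rcases mul_eq_zero.mp h2 with h3 | h3
    · norm_num at h3
    · exact h3

/-- `3 dim(triZeroF) + 2 #fixed points = 2 #X`, in any characteristic. -/
theorem three_mul_finrank_triZeroF [Fintype X] [DecidableEq X] {U : G}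
    (hU : ∀ x : X, U • U • U • x = x) :
    3 * finrank F (triZeroF F (X := X) U) + 2 * Fintype.card {x : X // U • x = x}
      = 2 * Fintype.card X := by
  have h1 := finrank_triZeroF_add_orbits F (X := X) hU
  have h2 := finrank_triZeroF_add_orbits ℂ (X := X) hU
  have h3 := Fermat.Agent.S21.three_mul_finrank_triZero (X := X) U hU
  rw [triZeroF_complex_eq] at h2
  omega

end OrderThree


section Main

variable (F : Type*) [Field F] {G X : Type*} [Group G] [MulAction G X]

/-- `τ(a,b) = b − a ∘ T`. -/
def tauMapF (T : G) : (X → F) × (X → F) →ₗ[F] (X → F) :=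
  LinearMap.snd F _ _ - (pullF F T).comp (LinearMap.fst F _ _)

variable {F} in
@[simp] lemma tauMapF_apply (T : G) (p : (X → F) × (X → F)) (x : X) :
    tauMapF F T p x = p.2 x - p.1 (T • x) := rfl

/-- The space of "parabolic cocycle data" `(a, b)`. -/
def cocycleSpaceF (S U T : G) : Submodule F ((X → F) × (X → F)) :=
  ((antiInvF F S).prod (triZeroF F U)) ⊓ (cobTF F T).comap (tauMapF F T)

/-- The coboundary map `m ↦ (m ∘ S − m, m ∘ U − m)`. -/
def cobMapF (S U : G) : (X → F) →ₗ[F] (X → F) × (X → F) :=
  (pullF F S - LinearMap.id).prod (pullF F U - LinearMap.id)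

variable {F} in
@[simp] lemma cobMapF_apply (S U : G) (m : X → F) :
    cobMapF F S U m = (pullF F S m - m, pullF F U m - m) := rfl

omit [Field F] in
variable {F} in
lemma constF_of_invariant [MulAction.IsPretransitive G X] {S U : G}
    (hgen : Subgroup.closure ({S, U} : Set G) = ⊤) {m : X → F}
    (hS : ∀ x, m (S • x) = m x) (hU : ∀ x, m (U • x) = m x) (x y : X) : m x = m y := by
  have key : ∀ g : G, ∀ z, m (g • z) = m z := by
    intro g
    refine Fermat.Agent.S21.forall_of_closure_eq_top hgen (fun g => ∀ z, m (g • z) = m z)
      ?_ hS hU ?_ ?_ g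
    · intro z; rw [one_smul]
    · intro g h hg hh z; rw [mul_smul, hg, hh]
    · intro g hg z
      have := hg (g⁻¹ • z)
      rw [smul_inv_smul] at this
      exact this.symm
  obtain ⟨g, rfl⟩ := MulAction.exists_smul_eq G y x
  exact key g y

variable [Fintype X]

/-- The coboundaries have dimension `#X − 1`. -/
theorem finrank_range_cobMapF_add_one [MulAction.IsPretransitive G X] [Nonempty X] {S U : G}
    (hgen : Subgroup.closure ({S, U} : Set G) = ⊤) :
    finrank F (LinearMap.range (cobMapF F (X := X) S U)) + 1 = Fintype.card X := by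
  have h := LinearMap.finrank_range_add_finrank_ker (cobMapF F (X := X) S U)
  rw [finrank_fintype_fun_eq_card] at h
  suffices hk : finrank F (LinearMap.ker (cobMapF F (X := X) S U)) = 1 by omega
  set κ : F →ₗ[F] (X → F) := LinearMap.pi (fun _ => LinearMap.id) with hκ
  have hκinj : Function.Injective κ := by
    intro c d hcd
    obtain ⟨x₀⟩ := ‹Nonempty X›
    exact congrFun hcd x₀
  have hrange : LinearMap.range κ = LinearMap.ker (cobMapF F (X := X) S U) := by
    apply le_antisymm
    · rintro _ ⟨c, rfl⟩
      rw [LinearMap.mem_ker, cobMapF_apply]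
      ext x <;> simp [hκ]
    · intro m hm
      rw [LinearMap.mem_ker, cobMapF_apply, Prod.mk_eq_zero] at hm
      obtain ⟨x₀⟩ := ‹Nonempty X›
      refine ⟨m x₀, ?_⟩
      funext x
      have hS : ∀ x, m (S • x) = m x := fun x => by
        have := congrFun hm.1 x
        simpa [sub_eq_zero] using this
      have hU : ∀ x, m (U • x) = m x := fun x => by
        have := congrFun hm.2 x
        simpa [sub_eq_zero] using this
      simpa [hκ] using constF_of_invariant hgen hS hU x₀ x
  rw [← hrange, LinearMap.finrank_range_of_inj hκinj, finrank_self]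

end Main

section MainBound

variable (F : Type*) [Field F] {G X : Type*} [Group G] [MulAction G X]

/-- The auxiliary map `(a, b, w) ↦ b − a ∘ T − w` on `A × B × W`. -/
def thetaMapF (S U T : G) :
    (antiInvF F (X := X) S × triZeroF F (X := X) U × cobTF F (X := X) T) →ₗ[F] (X → F) :=
  (triZeroF F (X := X) U).subtype.comp
      ((LinearMap.fst F _ _).comp (LinearMap.snd F (antiInvF F (X := X) S) _))
    - (pullF F T).comp ((antiInvF F (X := X) S).subtype.comp (LinearMap.fst F _ _))
    - (cobTF F (X := X) T).subtype.comp
      ((LinearMap.snd F _ _).comp (LinearMap.snd F (antiInvF F (X := X) S) _))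

variable {F} in
lemma thetaMapF_apply (S U T : G)
    (p : antiInvF F (X := X) S × triZeroF F (X := X) U × cobTF F (X := X) T) :
    thetaMapF F S U T p = (p.2.1 : X → F) - pullF F T (p.1 : X → F) - (p.2.2 : X → F) := rfl

variable {F} in
lemma pullF_sub_mem_range_thetaMapF {S U T : G}
    (hgen : Subgroup.closure ({S, U} : Set G) = ⊤)
    (hS2 : ∀ x : X, S • S • x = x) (hU3 : ∀ x : X, U • U • U • x = x) (g : G) (m : X → F) :
    pullF F g m - m ∈ LinearMap.range (thetaMapF F (X := X) S U T) := by
  have hW : ∀ w ∈ cobTF F (X := X) T, w ∈ LinearMap.range (thetaMapF F (X := X) S U T) := by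
    intro w hw
    refine ⟨(0, 0, ⟨-w, neg_mem hw⟩), ?_⟩
    rw [thetaMapF_apply]
    simp
  have hB : ∀ b ∈ triZeroF F (X := X) U, b ∈ LinearMap.range (thetaMapF F (X := X) S U T) := by
    intro b hb
    refine ⟨(0, ⟨b, hb⟩, 0), ?_⟩
    rw [thetaMapF_apply]
    simp
  have hA : ∀ a ∈ antiInvF F (X := X) S, a ∈ LinearMap.range (thetaMapF F (X := X) S U T) := by
    intro a ha
    have hw : pullF F T a - a ∈ cobTF F (X := X) T := ⟨a, rfl⟩
    refine ⟨(⟨-a, neg_mem ha⟩, 0, ⟨pullF F T a - a, hw⟩), ?_⟩
    rw [thetaMapF_apply]
    simp
  refine Fermat.Agent.S21.forall_of_closure_eq_top hgen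
    (fun g => ∀ m : X → F, pullF F g m - m ∈ LinearMap.range (thetaMapF F (X := X) S U T))
    ?_ ?_ ?_ ?_ ?_ g m
  · intro m
    rw [pullF_one]
    simp
  · intro m
    apply hA
    rw [mem_antiInvF]
    intro x
    refine ⟨?_, fun hx => ?_⟩
    · simp only [Pi.sub_apply, pullF_apply, hS2]
      ring
    · simp only [Pi.sub_apply, pullF_apply, hx, sub_self]
  · intro m
    apply hB
    rw [mem_triZeroF]
    intro x
    refine ⟨?_, fun hx => ?_⟩
    · simp only [Pi.sub_apply, pullF_apply, hU3]
      ring
    · simp only [Pi.sub_apply, pullF_apply, hx, sub_self]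
  · intro g h hg hh m
    have h1 := hh (pullF F g m)
    have h2 := hg m
    have : pullF F (g * h) m - m = (pullF F h (pullF F g m) - pullF F g m) + (pullF F g m - m) := by
      rw [pullF_mul]
      simp
    rw [this]
    exact add_mem h1 h2
  · intro g hg m
    have h1 := hg (pullF F g⁻¹ m)
    have : pullF F g (pullF F g⁻¹ m) = m := by
      funext x
      simp
    rw [this] at h1
    have h2 : pullF F g⁻¹ m - m = -(m - pullF F g⁻¹ m) := by ring
    rw [h2]
    exact neg_mem h1

variable [Fintype X] [DecidableEq X]

lemma finrank_range_thetaMapF_add_one_ge [MulAction.IsPretransitive G X] [Nonempty X]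
    {S U T : G} (hgen : Subgroup.closure ({S, U} : Set G) = ⊤)
    (hS2 : ∀ x : X, S • S • x = x) (hU3 : ∀ x : X, U • U • U • x = x) :
    Fintype.card X ≤ finrank F (LinearMap.range (thetaMapF F (X := X) S U T)) + 1 := by
  obtain ⟨x₀⟩ := ‹Nonempty X›
  set R := LinearMap.range (thetaMapF F (X := X) S U T) with hR
  set d : X → F := Pi.single x₀ 1 with hd
  have hsingle : ∀ x : X, (Pi.single x 1 : X → F) - d ∈ R := by
    intro x
    obtain ⟨h, hh⟩ := MulAction.exists_smul_eq G x₀ x
    have := pullF_sub_mem_range_thetaMapF (F := F) (T := T) hgen hS2 hU3 h⁻¹ d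
    have h2 : pullF F h⁻¹ d = (Pi.single x 1 : X → F) := by
      funext y
      simp only [pullF_apply, hd, Pi.single_apply]
      have : h⁻¹ • y = x₀ ↔ y = x := by
        rw [inv_smul_eq_iff, hh]
      simp only [this]
    rwa [h2] at this
  have htop : (⊤ : Submodule F (X → F)) ≤ R ⊔ Submodule.span F {d} := by
    intro m _
    have hm : m = (∑ x, m x • ((Pi.single x 1 : X → F) - d)) + (∑ x, m x) • d := by
      funext y
      simp only [Pi.add_apply, Finset.sum_apply, Pi.smul_apply, Pi.sub_apply, smul_eq_mul,
        Pi.single_apply, mul_sub, Finset.sum_sub_distrib, Finset.sum_mul]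
      simp
    rw [hm]
    refine Submodule.add_mem_sup ?_ ?_
    · exact Submodule.sum_mem _ fun x _ => Submodule.smul_mem _ _ (hsingle x)
    · exact Submodule.smul_mem _ _ (Submodule.subset_span rfl)
  have h1 : finrank F (X → F) ≤ finrank F ↥(R ⊔ Submodule.span F {d}) := by
    rw [← finrank_top F (X → F)]
    exact Submodule.finrank_mono htop
  have h2 := Submodule.finrank_add_le_finrank_add_finrank R (Submodule.span F {d})
  have hd0 : d ≠ 0 := by
    intro h0
    have := congrFun h0 x₀
    simp [hd] at this
  have h3 : finrank F ↥(Submodule.span F {d}) = 1 := finrank_span_singleton hd0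
  rw [finrank_fintype_fun_eq_card] at h1
  omega

/-- **Main dimension bound** for the cocycle space. -/
theorem finrank_cocycleSpaceF_add_card_le [MulAction.IsPretransitive G X] [Nonempty X]
    {S U T : G} (hgen : Subgroup.closure ({S, U} : Set G) = ⊤)
    (hS2 : ∀ x : X, S • S • x = x) (hU3 : ∀ x : X, U • U • U • x = x) :
    finrank F (cocycleSpaceF F (X := X) S U T) + Fintype.card X ≤
      finrank F (antiInvF F (X := X) S) + finrank F (triZeroF F (X := X) U)
        + finrank F (cobTF F (X := X) T) + 1 := by
  have hrn := LinearMap.finrank_range_add_finrank_ker (thetaMapF F (X := X) S U T)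
  rw [Module.finrank_prod, Module.finrank_prod] at hrn
  have hge := finrank_range_thetaMapF_add_one_ge F (T := T) hgen hS2 hU3
  -- injection of the cocycle space into the kernel of `thetaMapF`
  let ι : cocycleSpaceF F (X := X) S U T →ₗ[F] LinearMap.ker (thetaMapF F (X := X) S U T) :=
    { toFun := fun p =>
        ⟨(⟨p.1.1, p.2.1.1⟩, ⟨p.1.2, p.2.1.2⟩, ⟨tauMapF F T p.1, p.2.2⟩), by
          rw [LinearMap.mem_ker, thetaMapF_apply]
          funext x
          simp [tauMapF]⟩
      map_add' := fun p q => by
        apply Subtype.ext
        simp only [Submodule.coe_add, Prod.fst_add, Prod.snd_add, map_add, Prod.mk_add_mk]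
        rfl
      map_smul' := fun c p => by
        apply Subtype.ext
        simp only [Submodule.coe_smul, Prod.smul_fst, Prod.smul_snd, map_smul, RingHom.id_apply,
          Prod.smul_mk]
        rfl }
  have hι : Function.Injective ι := by
    intro p q hpq
    have h := Subtype.ext_iff.mp hpq
    simp only [ι, LinearMap.coe_mk, AddHom.coe_mk, Prod.mk.injEq, Subtype.mk.injEq] at h
    exact Subtype.ext (Prod.ext h.1 h.2.1)
  have hle := LinearMap.finrank_le_finrank_of_injective hι
  omega

end MainBound

end Fermat.Agent.S16
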