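import Mathlib
import Fermat.Agent.S21.Cocycle
import Fermat.Agent.S16.LB.PermLinAlgF

/-!
# Homomorphisms `Γ → F` vanishing on a conjugation invariant set, over an arbitrary field
(S16, lower bound, package LB1)

Characteristic-free version of `Fermat.Agent.S21.ParCocycle`: for `Γ ≤ G = ⟨S, U⟩` of finite index,
`U = S T`, and a conjugation invariant predicate `P` on `G` containing `S`, `U`, `S²`, `U³` and the
powers of `T`, the space of homomorphisms `Γ → F` vanishing on `Γ ∩ P` has dimension bounded by the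
"genus formula".
-/

set_option autoImplicit false

namespace Fermat.Agent.S16

open Module Fermat.Agent.S21

section ParCocycleF

variable (F : Type*) [Field F] {G : Type*} [Group G]

/-- Homomorphisms `Γ → F` vanishing on the elements of `Γ` satisfying `P`. -/
def parHomsF (Γ : Subgroup G) (P : G → Prop) : Submodule F (Additive Γ →+ F) where
  carrier := {φ | ∀ γ : Γ, P (γ : G) → φ (Additive.ofMul γ) = 0}
  zero_mem' := fun _ _ => rfl
  add_mem' := by
    intro φ ψ hφ hψ γ hγ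
    show φ (Additive.ofMul γ) + ψ (Additive.ofMul γ) = 0
    rw [hφ γ hγ, hψ γ hγ, add_zero]
  smul_mem' := by
    intro c φ hφ γ hγ
    show c • φ (Additive.ofMul γ) = 0
    rw [hφ γ hγ, smul_zero]

variable {F}

lemma mem_parHomsF {Γ : Subgroup G} {P : G → Prop} {φ : Additive Γ →+ F} :
    φ ∈ parHomsF F Γ P ↔ ∀ γ : Γ, P (γ : G) → φ (Additive.ofMul γ) = 0 := Iff.rfl

variable {Γ : Subgroup G} {P : G → Prop}

/-- The cocycle of a homomorphism `φ`. -/
noncomputable def cocF (φ : Additive Γ →+ F) (g : G) : (G ⧸ Γ) → F :=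
  fun x => φ (Additive.ofMul (gam Γ g x))

lemma cocF_mul (φ : Additive Γ →+ F) (g h : G) (x : G ⧸ Γ) :
    cocF φ (g * h) x = cocF φ g (h • x) + cocF φ h x := by
  simp only [cocF, gam_mul, ofMul_mul, map_add]

lemma cocF_one (φ : Additive Γ →+ F) (x : G ⧸ Γ) : cocF φ 1 x = 0 := by
  have := cocF_mul φ 1 1 x
  rw [mul_one, one_smul] at this
  simpa using this

lemma cocF_inv (φ : Additive Γ →+ F) (g : G) (x : G ⧸ Γ) :
    cocF φ g⁻¹ x = - cocF φ g (g⁻¹ • x) := by
  have := cocF_mul φ g g⁻¹ x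
  rw [mul_inv_cancel, cocF_one] at this
  linear_combination -this

/-- The value of `φ` at `γ ∈ Γ` is read off from the cocycle at the base point. -/
lemma cocF_base (φ : Additive Γ →+ F) (γ : Γ) :
    cocF φ (γ : G) ((1 : G) : G ⧸ Γ) = φ (Additive.ofMul γ) := by
  set x₀ : G ⧸ Γ := ((1 : G) : G ⧸ Γ) with hx₀
  have hfix : (γ : G) • x₀ = x₀ := smul_one_coset Γ γ
  have hr : Quotient.out x₀ ∈ Γ := by
    have h1 : ((Quotient.out x₀ : G) : G ⧸ Γ) = ((1 : G) : G ⧸ Γ) := QuotientGroup.out_eq' x₀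
    rw [QuotientGroup.eq] at h1
    have := Γ.inv_mem h1
    simpa using this
  have hgam : gam Γ (γ : G) x₀ = (⟨Quotient.out x₀, hr⟩ : Γ)⁻¹ * γ * ⟨Quotient.out x₀, hr⟩ := by
    apply Subtype.ext
    rw [coe_gam_of_smul_eq Γ hfix]
    rfl
  simp only [cocF, hgam, ofMul_mul, ofMul_inv, map_add, map_neg]
  ring

variable (F) in
/-- The linear map `φ ↦ (c_φ(S), c_φ(U))`. -/
noncomputable def xiMapF (S U : G) :
    (Additive Γ →+ F) →ₗ[F] ((G ⧸ Γ) → F) × ((G ⧸ Γ) → F) where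
  toFun φ := (cocF φ S, cocF φ U)
  map_add' φ ψ := rfl
  map_smul' c φ := rfl

@[simp] lemma xiMapF_apply (S U : G) (φ : Additive Γ →+ F) :
    xiMapF F S U φ = (cocF φ S, cocF φ U) := rfl

/-- If the cocycle data of `φ` is a coboundary then `φ = 0`. -/
theorem eq_zero_of_xiMapF_eq_cobMapF {S U : G} (hgen : Subgroup.closure ({S, U} : Set G) = ⊤)
    (φ : Additive Γ →+ F) (m : (G ⧸ Γ) → F) (h : xiMapF F S U φ = cobMapF F S U m) : φ = 0 := by
  rw [xiMapF_apply, cobMapF_apply, Prod.mk.injEq] at h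
  have key : ∀ g : G, ∀ x, cocF φ g x = m (g • x) - m x := by
    intro g
    refine forall_of_closure_eq_top hgen (fun g => ∀ x, cocF φ g x = m (g • x) - m x)
      ?_ ?_ ?_ ?_ ?_ g
    · intro x; rw [cocF_one, one_smul, sub_self]
    · intro x; rw [h.1]; rfl
    · intro x; rw [h.2]; rfl
    · intro g h hg hh x
      rw [cocF_mul, hg, hh, mul_smul]
      ring
    · intro g hg x
      rw [cocF_inv, hg, smul_inv_smul]
      ring
  refine AddMonoidHom.ext fun γ => ?_
  have h1 := cocF_base φ (Additive.toMul γ)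
  rw [key] at h1
  have hfix : ((Additive.toMul γ : Γ) : G) • (((1 : G) : G ⧸ Γ)) = ((1 : G) : G ⧸ Γ) :=
    smul_one_coset Γ _
  rw [hfix, sub_self] at h1
  simpa using h1.symm

theorem xiMapF_injective {S U : G} (hgen : Subgroup.closure ({S, U} : Set G) = ⊤) :
    Function.Injective (xiMapF F (Γ := Γ) S U) := by
  rw [← LinearMap.ker_eq_bot, LinearMap.ker_eq_bot']
  intro φ hφ
  refine eq_zero_of_xiMapF_eq_cobMapF hgen φ 0 ?_
  rw [hφ, map_zero]

lemma cocF_eq_zero_of_smul_eq (hP : ∀ g h : G, P h → P (g⁻¹ * h * g))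
    {φ : Additive Γ →+ F} (hφ : φ ∈ parHomsF F Γ P) {g : G} {x : G ⧸ Γ} (hx : g • x = x)
    (hg : P g) : cocF φ g x = 0 := by
  apply hφ
  rw [coe_gam_of_smul_eq Γ hx]
  exact hP _ _ hg

lemma cocF_mem_antiInvF (hP : ∀ g h : G, P h → P (g⁻¹ * h * g))
    {φ : Additive Γ →+ F} (hφ : φ ∈ parHomsF F Γ P) {S : G}
    (hS2 : ∀ x : G ⧸ Γ, S • S • x = x) (hPS : P (S * S)) (hPS1 : P S) :
    cocF φ S ∈ antiInvF F (X := G ⧸ Γ) S := by
  rw [mem_antiInvF]
  intro x
  refine ⟨?_, fun hx => cocF_eq_zero_of_smul_eq hP hφ hx hPS1⟩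
  have h := cocF_mul φ S S x
  have hx : (S * S) • x = x := by rw [mul_smul]; exact hS2 x
  rw [cocF_eq_zero_of_smul_eq hP hφ hx hPS] at h
  linear_combination -h

lemma cocF_mem_triZeroF (hP : ∀ g h : G, P h → P (g⁻¹ * h * g))
    {φ : Additive Γ →+ F} (hφ : φ ∈ parHomsF F Γ P) {U : G}
    (hU3 : ∀ x : G ⧸ Γ, U • U • U • x = x) (hPU : P (U * U * U)) (hPU1 : P U) :
    cocF φ U ∈ triZeroF F (X := G ⧸ Γ) U := by
  rw [mem_triZeroF]
  intro x
  refine ⟨?_, fun hx => cocF_eq_zero_of_smul_eq hP hφ hx hPU1⟩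
  have h := cocF_mul φ (U * U) U x
  have h' := cocF_mul φ U U (U • x)
  have hx : (U * U * U) • x = x := by rw [mul_smul, mul_smul]; exact hU3 x
  rw [cocF_eq_zero_of_smul_eq hP hφ hx hPU] at h
  linear_combination -h - h'

lemma cocF_mem_cobTF (hP : ∀ g h : G, P h → P (g⁻¹ * h * g))
    {φ : Additive Γ →+ F} (hφ : φ ∈ parHomsF F Γ P) {T : G} (hT : ∀ k : ℤ, P (T ^ k)) :
    cocF φ T ∈ cobTF F (X := G ⧸ Γ) T := by
  classical
  let Ω := MulAction.orbitRel.Quotient (Subgroup.zpowers T) (G ⧸ Γ)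
  let b : G ⧸ Γ → G ⧸ Γ := fun x => Quotient.out (Quotient.mk'' x : Ω)
  have hb : ∀ x, ∃ k : ℤ, T ^ k • b x = x := by
    intro x
    have h1 : (Quotient.mk'' (b x) : Ω) = Quotient.mk'' x := Quotient.out_eq' _
    have h2 := Quotient.exact' h1
    obtain ⟨⟨g, hg⟩, hgx⟩ := h2
    obtain ⟨k, rfl⟩ := Subgroup.mem_zpowers_iff.mp hg
    refine ⟨-k, ?_⟩
    have hgx' : T ^ k • x = b x := hgx
    rw [← hgx', ← mul_smul, ← zpow_add, neg_add_cancel, zpow_zero, one_smul]
  choose k hk using hb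
  have hbT : ∀ x, b (T • x) = b x := by
    intro x
    have : (Quotient.mk'' (T • x) : Ω) = Quotient.mk'' x := by
      apply Quotient.sound'
      exact ⟨⟨T, Subgroup.mem_zpowers T⟩, rfl⟩
    show Quotient.out (Quotient.mk'' (T • x) : Ω) = Quotient.out (Quotient.mk'' x : Ω)
    rw [this]
  refine ⟨fun x => cocF φ (T ^ k x) (b x), ?_⟩
  funext x
  simp only [LinearMap.sub_apply, LinearMap.id_apply, pullF_apply, Pi.sub_apply]
  rw [hbT]
  set m : ℤ := k (T • x) - k x - 1 with hm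
  have h1 : T ^ k (T • x) • b x = T • x := by rw [← hbT x]; exact hk (T • x)
  have hprod : T ^ k (T • x) = T ^ m * (T * T ^ k x) := by
    rw [← zpow_one_add, ← zpow_add]
    congr 1
    rw [hm]; ring
  have h2 : (T * T ^ k x) • b x = T • x := by rw [mul_smul, hk]
  have hfix : T ^ m • (T • x) = T • x := by
    calc T ^ m • (T • x) = T ^ m • ((T * T ^ k x) • b x) := by rw [h2]
      _ = (T ^ m * (T * T ^ k x)) • b x := (mul_smul _ _ _).symm
      _ = T ^ k (T • x) • b x := by rw [← hprod]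
      _ = T • x := h1
  rw [hprod, cocF_mul, cocF_mul, h2, hk, cocF_eq_zero_of_smul_eq hP hφ hfix (hT m)]
  ring

lemma range_cobMapF_le_cocycleSpaceF {X : Type*} [MulAction G X] {S U T : G} (hU : U = S * T)
    (hS2 : ∀ x : X, S • S • x = x) (hU3 : ∀ x : X, U • U • U • x = x) :
    LinearMap.range (cobMapF F (X := X) S U) ≤ cocycleSpaceF F S U T := by
  rintro _ ⟨m, rfl⟩
  refine ⟨⟨?_, ?_⟩, ?_⟩
  · show (cobMapF F S U m).1 ∈ antiInvF F S
    rw [mem_antiInvF]
    intro x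
    refine ⟨?_, fun hx => ?_⟩
    · simp only [cobMapF_apply, Pi.sub_apply, pullF_apply, hS2]
      ring
    · simp only [cobMapF_apply, Pi.sub_apply, pullF_apply, hx, sub_self]
  · show (cobMapF F S U m).2 ∈ triZeroF F U
    rw [mem_triZeroF]
    intro x
    refine ⟨?_, fun hx => ?_⟩
    · simp only [cobMapF_apply, Pi.sub_apply, pullF_apply, hU3]
      ring
    · simp only [cobMapF_apply, Pi.sub_apply, pullF_apply, hx, sub_self]
  · show tauMapF F T (cobMapF F S U m) ∈ cobTF F T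
    refine ⟨m, ?_⟩
    funext x
    simp only [tauMapF_apply, cobMapF_apply, Pi.sub_apply, pullF_apply, LinearMap.sub_apply,
      LinearMap.id_apply, hU, mul_smul]
    ring

lemma xiMapF_mem_cocycleSpaceF (hP : ∀ g h : G, P h → P (g⁻¹ * h * g))
    {φ : Additive Γ →+ F} (hφ : φ ∈ parHomsF F Γ P) {S U T : G} (hU : U = S * T)
    (hS2 : ∀ x : G ⧸ Γ, S • S • x = x) (hU3 : ∀ x : G ⧸ Γ, U • U • U • x = x)
    (hPS : P (S * S)) (hPU : P (U * U * U)) (hPS1 : P S) (hPU1 : P U)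
    (hT : ∀ k : ℤ, P (T ^ k)) :
    xiMapF F S U φ ∈ cocycleSpaceF F (X := G ⧸ Γ) S U T := by
  refine ⟨⟨cocF_mem_antiInvF hP hφ hS2 hPS hPS1, cocF_mem_triZeroF hP hφ hU3 hPU hPU1⟩, ?_⟩
  show tauMapF F T (xiMapF F S U φ) ∈ cobTF F T
  have : tauMapF F T (xiMapF F S U φ) = cocF φ T := by
    funext x
    simp only [tauMapF_apply, xiMapF_apply]
    rw [hU, cocF_mul]
    ring
  rw [this]
  exact cocF_mem_cobTF hP hφ hT

variable (F) in
/-- `Hom(Γ, F)` is finite dimensional when `Γ` has finite index in the 2-generated group `G`. -/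
theorem finiteDimensional_addHomF [Finite (G ⧸ Γ)] {S U : G}
    (hgen : Subgroup.closure ({S, U} : Set G) = ⊤) :
    FiniteDimensional F (Additive Γ →+ F) := by
  letI : Fintype (G ⧸ Γ) := Fintype.ofFinite _
  exact FiniteDimensional.of_injective (xiMapF F (Γ := Γ) S U) (xiMapF_injective hgen)

variable (F) in
/-- **The group-side bound over an arbitrary field.** -/
theorem six_mul_finrank_parHomsF_le [Finite (G ⧸ Γ)] {S U T : G} (hU : U = S * T)
    (hgen : Subgroup.closure ({S, U} : Set G) = ⊤)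
    (hP : ∀ g h : G, P h → P (g⁻¹ * h * g))
    (hS2 : ∀ x : G ⧸ Γ, S • S • x = x) (hU3 : ∀ x : G ⧸ Γ, U • U • U • x = x)
    (hPS : P (S * S)) (hPU : P (U * U * U)) (hPS1 : P S) (hPU1 : P U)
    (hT : ∀ k : ℤ, P (T ^ k)) :
    6 * finrank F (parHomsF F Γ P) + 3 * Nat.card {x : G ⧸ Γ // S • x = x}
      + 4 * Nat.card {x : G ⧸ Γ // U • x = x}
      + 6 * Nat.card (MulAction.orbitRel.Quotient (Subgroup.zpowers T) (G ⧸ Γ))
      ≤ Nat.card (G ⧸ Γ) + 12 := by
  classical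
  letI : Fintype (G ⧸ Γ) := Fintype.ofFinite _
  have := finiteDimensional_addHomF F (Γ := Γ) hgen
  set A : Submodule F (((G ⧸ Γ) → F) × ((G ⧸ Γ) → F)) := (parHomsF F Γ P).map (xiMapF F S U)
    with hA
  set B : Submodule F (((G ⧸ Γ) → F) × ((G ⧸ Γ) → F)) := LinearMap.range (cobMapF F S U) with hB
  have hAle : A ≤ cocycleSpaceF F S U T := by
    rintro _ ⟨φ, hφ, rfl⟩
    exact xiMapF_mem_cocycleSpaceF hP hφ hU hS2 hU3 hPS hPU hPS1 hPU1 hT
  have hBle : B ≤ cocycleSpaceF F S U T := range_cobMapF_le_cocycleSpaceF hU hS2 hU3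
  have hdisj : Disjoint A B := by
    rw [Submodule.disjoint_def]
    rintro _ ⟨φ, -, rfl⟩ ⟨m, hm⟩
    have := eq_zero_of_xiMapF_eq_cobMapF hgen φ m hm.symm
    rw [this, map_zero]
  have hAdim : finrank F A = finrank F (parHomsF F Γ P) :=
    (Submodule.equivMapOfInjective (xiMapF F S U) (xiMapF_injective hgen)
      (parHomsF F Γ P)).finrank_eq.symm
  have hBdim : finrank F B + 1 = Fintype.card (G ⧸ Γ) :=
    finrank_range_cobMapF_add_one F (X := G ⧸ Γ) hgen
  have hsup := Submodule.finrank_sup_add_finrank_inf_eq A B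
  rw [hdisj.eq_bot, finrank_bot, add_zero] at hsup
  have hmono : finrank F ↥(A ⊔ B) ≤ finrank F (cocycleSpaceF F (X := G ⧸ Γ) S U T) :=
    Submodule.finrank_mono (sup_le hAle hBle)
  have hmain := finrank_cocycleSpaceF_add_card_le F (X := G ⧸ Γ) (T := T) hgen hS2 hU3
  have h2 := two_mul_finrank_antiInvF F (X := G ⧸ Γ) hS2
  have h3 := three_mul_finrank_triZeroF F (X := G ⧸ Γ) hU3
  have h4 : finrank F (cobTF F (X := G ⧸ Γ) T)
      + Nat.card (MulAction.orbitRel.Quotient (Subgroup.zpowers T) (G ⧸ Γ))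
      = Fintype.card (G ⧸ Γ) := finrank_cobTF_add_card_orbits F (X := G ⧸ Γ) T
  simp only [Fintype.card_eq_nat_card] at h2 h3 h4 hmain hBdim
  omega

end ParCocycleF

end Fermat.Agent.S16
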