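import Mathlib
import Fermat.Prelude.Def_ModularCurve_PeriodHomPair
import Fermat.Prelude.Def_ModularCurve_GenusNumerics
import Fermat.Agent.S16.LB.ParCocycleF
import Fermat.Agent.S21.GroupBound

/-!
# The group-side bound for `Γ₀(N)` over an arbitrary field (S16, lower bound, package LB1)

`6 · dim_F Hom_ell(Γ₀(N), F) + 3 ν₂ + 4 ν₃ + 6 c ≤ ψ + 12`, where `Hom_ell` are the homomorphisms
vanishing on all elements of trace `0, ±1, ±2`.
-/

set_option autoImplicit false

open Matrix MatrixGroups ModularGroup CongruenceSubgroup Matrix.SpecialLinearGroup Module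

namespace Fermat.Agent.S16

/-- The "parabolic, central or elliptic" predicate `tr² ≤ 4`. -/
def ellPred (g : SL(2, ℤ)) : Prop := (g : Matrix (Fin 2) (Fin 2) ℤ).trace ^ 2 ≤ 4

lemma ellPred_of_trPred {g : SL(2, ℤ)} (h : Fermat.Agent.S21.trPred g) : ellPred g := by
  unfold ellPred
  unfold Fermat.Agent.S21.trPred at h
  rw [h]

lemma ellPred_conj (g h : SL(2, ℤ)) (hh : ellPred h) : ellPred (g⁻¹ * h * g) := by
  unfold ellPred at hh ⊢
  have e : ((g⁻¹ * h * g : SL(2, ℤ)) : Matrix (Fin 2) (Fin 2) ℤ)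
      = (g⁻¹ : SL(2, ℤ)).1 * h.1 * g.1 := rfl
  have e2 : g.1 * (g⁻¹ : SL(2, ℤ)).1 = 1 := by
    have : ((g * g⁻¹ : SL(2, ℤ)) : Matrix (Fin 2) (Fin 2) ℤ) = g.1 * (g⁻¹ : SL(2, ℤ)).1 := rfl
    rw [← this, mul_inv_cancel]
    rfl
  rw [e, Matrix.trace_mul_cycle, e2, Matrix.one_mul]
  exact hh

lemma ellPred_S : ellPred S := by
  unfold ellPred
  simp [S, Matrix.trace_fin_two]

lemma ellPred_ST : ellPred (S * T) := by
  unfold ellPred
  have e : ((S * T : SL(2, ℤ)) : Matrix (Fin 2) (Fin 2) ℤ) = S.1 * T.1 := rfl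
  rw [e, Matrix.trace_fin_two]
  simp [S, T, Matrix.mul_apply, Fin.sum_univ_two]

/-- **Package LB1.** The group-side bound for `Γ₀(N)` over an arbitrary field. -/
theorem finrank_ellHoms_le (N : ℕ) [NeZero N] (F : Type*) [Field F] :
    FiniteDimensional F (Additive (Gamma0 N) →+ F) ∧
    6 * finrank F (parHomsF F (Gamma0 N) ellPred)
      + 3 * ModularCurve.nuTwo N + 4 * ModularCurve.nuThree N + 6 * ModularCurve.cuspCount N
      ≤ ModularCurve.dedekindPsi N + 12 := by
  have hfd : FiniteDimensional F (Additive (Gamma0 N) →+ F) :=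
    finiteDimensional_addHomF F (Γ := Gamma0 N) Fermat.Agent.S21.closure_S_ST
  refine ⟨hfd, ?_⟩
  have hS2 : ∀ x : SL(2, ℤ) ⧸ Gamma0 N, S • S • x = x := by
    intro x
    rw [← mul_smul, Fermat.Agent.S21.S_mul_S_eq_neg_one, Fermat.Agent.S21.neg_one_smul_coset]
  have hU3 : ∀ x : SL(2, ℤ) ⧸ Gamma0 N, (S * T) • (S * T) • (S * T) • x = x := by
    intro x
    rw [← mul_smul, ← mul_smul, Fermat.Agent.S21.ST_cube_eq_neg_one,
      Fermat.Agent.S21.neg_one_smul_coset]
  have h := six_mul_finrank_parHomsF_le F (Γ := Gamma0 N) (P := ellPred) (S := S) (U := S * T)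
    (T := T) rfl Fermat.Agent.S21.closure_S_ST ellPred_conj hS2 hU3
    (by rw [Fermat.Agent.S21.S_mul_S_eq_neg_one]
        exact ellPred_of_trPred Fermat.Agent.S21.trPred_neg_one)
    (by rw [Fermat.Agent.S21.ST_cube_eq_neg_one]
        exact ellPred_of_trPred Fermat.Agent.S21.trPred_neg_one)
    ellPred_S ellPred_ST (fun k => ellPred_of_trPred (Fermat.Agent.S21.trPred_T_zpow k))
  have c1 := Fermat.Agent.S20.S20_card_Q N
  have c2 := Fermat.Agent.S20.S20_card_fixed_S N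
  have c3 := Fermat.Agent.S20.S20_card_fixed_ST N
  have c4 := Fermat.Agent.S20.S20_card_T_orbits N
  rw [← c1, ← c2, ← c3, ← c4]
  exact h

end Fermat.Agent.S16
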