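import Mathlib
import Fermat.Agent.S16.LB.GroupBoundF
import Fermat.Agent.S21
import Fermat.Agent.S22.Gamma0FG

/-!
# S16, lower bound, package LB2 (part A): dimension formula, torsion, rational structure

* `six_mul_finrank_parabolicHoms`: `6 dim_ℂ Hom_par(Γ₀(N), ℂ) + 3ν₂ + 4ν₃ + 6c = ψ + 12`
  (from S20 and S21);
* `finrank_ellHoms_le_finrank`: `dim_F Hom_ell(Γ₀(N), F) ≤ dim_ℂ Hom_par(Γ₀(N), ℂ)` for every
  field `F`;
* `ellPred_pow_twelve`: elements with `tr² ≤ 4`, `tr² ≠ 4` have order dividing 12;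
* `parabolic_le_span_int`: `Hom_par(Γ₀(N), ℂ)` is spanned over `ℂ` by the integer valued
  parabolic homomorphisms.
-/

set_option autoImplicit false

open Matrix MatrixGroups ModularGroup CongruenceSubgroup Matrix.SpecialLinearGroup Module
open ModularCurve ModularCurve.Period

namespace Fermat.Agent.S16

section Formula

variable (N : ℕ) [NeZero N]

theorem finiteDimensional_parabolicHoms :
    FiniteDimensional ℂ (parabolicHoms ℂ (Gamma0 N) ℂ) :=
  (Fermat.Agent.S21.finrank_parabolicHoms_le N).1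

theorem finrank_parabolicHoms_eq :
    finrank ℂ (parabolicHoms ℂ (Gamma0 N) ℂ) = 2 * finrank ℂ (CuspForm (Gamma0 N) 2) := by
  obtain ⟨hinj, hrange⟩ := Fermat.Agent.S21.result N
  have hfd := finiteDimensional_parabolicHoms N
  obtain ⟨hS, -⟩ := Fermat.Agent.S21.S21_two_mul_finrank_le N hfd
  rw [← hrange, LinearMap.finrank_range_of_inj hinj, Module.finrank_prod]
  ring

theorem six_mul_finrank_parabolicHoms :
    6 * finrank ℂ (parabolicHoms ℂ (Gamma0 N) ℂ)
      + 3 * nuTwo N + 4 * nuThree N + 6 * cuspCount N = dedekindPsi N + 12 := by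
  have h1 := finrank_parabolicHoms_eq N
  have h2 := Fermat.Agent.S20.result N
  unfold genusFormula at h2
  have h3 : ((6 * finrank ℂ (parabolicHoms ℂ (Gamma0 N) ℂ)
      + 3 * nuTwo N + 4 * nuThree N + 6 * cuspCount N : ℕ) : ℚ) = ((dedekindPsi N + 12 : ℕ) : ℚ) := by
    rw [h1]
    push_cast
    linarith
  exact_mod_cast h3

theorem finrank_ellHoms_le_finrank (F : Type*) [Field F] :
    finrank F (parHomsF F (Gamma0 N) ellPred) ≤ finrank ℂ (parabolicHoms ℂ (Gamma0 N) ℂ) := by
  have h1 := (finrank_ellHoms_le N F).2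
  have h2 := six_mul_finrank_parabolicHoms N
  omega

end Formula

section Torsion

/-- Cayley–Hamilton for `SL(2, ℤ)`. -/
lemma sl2_sq (γ : SL(2, ℤ)) :
    (γ : Matrix (Fin 2) (Fin 2) ℤ) * (γ : Matrix (Fin 2) (Fin 2) ℤ)
      = (γ : Matrix (Fin 2) (Fin 2) ℤ).trace • (γ : Matrix (Fin 2) (Fin 2) ℤ) - 1 := by
  have hdet := Matrix.SpecialLinearGroup.det_coe γ
  rw [Matrix.det_fin_two] at hdet
  ext i j
  rw [Matrix.sub_apply, Matrix.smul_apply, smul_eq_mul, Matrix.trace_fin_two, Matrix.mul_apply,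
    Fin.sum_univ_two]
  fin_cases i <;> fin_cases j <;> simp <;>
    first
    | linear_combination -hdet
    | linear_combination (0 : ℤ) * hdet

/-- Elements of `SL(2, ℤ)` of trace `0, ±1` have order dividing `12`. -/
lemma ellPred_pow_twelve (γ : SL(2, ℤ)) (h : ellPred γ)
    (h' : ¬ (γ : Matrix (Fin 2) (Fin 2) ℤ).trace ^ 2 = 4) : γ ^ 12 = 1 := by
  unfold ellPred at h
  set t := (γ : Matrix (Fin 2) (Fin 2) ℤ).trace with ht
  have hsq := sl2_sq γ
  rw [← ht] at hsq
  have ht3 : t = 0 ∨ t = 1 ∨ t = -1 := by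
    have h1 : -2 ≤ t := by nlinarith
    have h2 : t ≤ 2 := by nlinarith
    have h3 : t ≠ 2 := fun h3 => h' (by rw [h3]; norm_num)
    have h4 : t ≠ -2 := fun h4 => h' (by rw [h4]; norm_num)
    omega
  set M := (γ : Matrix (Fin 2) (Fin 2) ℤ) with hM
  have hM12 : M ^ 12 = 1 := by
    rcases ht3 with h0 | h1 | h1
    · rw [h0, zero_smul, zero_sub] at hsq
      have : M ^ 12 = (M * M) ^ 6 := by rw [← pow_two, ← pow_mul]
      rw [this, hsq]
      norm_num
    · rw [h1, one_smul] at hsq
      have h3 : M * M * M = -1 := by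
        rw [hsq, sub_mul, one_mul, hsq]
        abel
      have : M ^ 12 = (M * M * M) ^ 4 := by rw [← pow_two, ← pow_succ, ← pow_mul]
      rw [this, h3]
      norm_num
    · rw [h1, neg_one_smul] at hsq
      have h3 : M * M * M = 1 := by
        rw [hsq, sub_mul, one_mul, neg_mul, hsq]
        abel
      have : M ^ 12 = (M * M * M) ^ 4 := by rw [← pow_two, ← pow_succ, ← pow_mul]
      rw [this, h3]
      norm_num
  apply Subtype.ext
  rw [Matrix.SpecialLinearGroup.coe_pow, ← hM, hM12]
  rfl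

/-- A homomorphism to a torsion free group which vanishes on the elements with `tr² = 4` vanishes
on the elements with `tr² ≤ 4`. -/
lemma ell_of_parabolic {N : ℕ} {B : Type*} [AddCommGroup B] [IsAddTorsionFree B]
    (φ : Additive (Gamma0 N) →+ B) (hφ : IsParabolicHom (Gamma0 N) φ)
    (γ : Gamma0 N) (hγ : ellPred (γ : SL(2, ℤ))) : φ (Additive.ofMul γ) = 0 := by
  by_cases h : ((γ : SL(2, ℤ)) : Matrix (Fin 2) (Fin 2) ℤ).trace ^ 2 = 4
  · exact hφ γ h
  · have h12 := ellPred_pow_twelve (γ : SL(2, ℤ)) hγ h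
    have h12' : γ ^ 12 = 1 := by
      apply Subtype.ext
      rw [Subgroup.coe_pow, h12]
      rfl
    have : (12 : ℕ) • φ (Additive.ofMul γ) = 0 := by
      rw [← map_nsmul, ← ofMul_pow, h12', ofMul_one, map_zero]
    exact (nsmul_eq_zero_iff_right (by norm_num)).mp this

end Torsion


section Rational

lemma forall_of_closure_top {Γ : Type*} [Group Γ] {Y : Set Γ} (hY : Subgroup.closure Y = ⊤)
    (p : Γ → Prop) (hmem : ∀ y ∈ Y, p y) (h1 : p 1) (hmul : ∀ a b, p a → p b → p (a * b))
    (hinv : ∀ a, p a → p a⁻¹) (γ : Γ) : p γ := by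
  have hγ : γ ∈ Subgroup.closure Y := hY ▸ Subgroup.mem_top γ
  induction hγ using Subgroup.closure_induction with
  | mem x hx => exact hmem x hx
  | one => exact h1
  | mul x y _ _ hx hy => exact hmul x y hx hy
  | inv x _ hx => exact hinv x hx

lemma addHom_eq_zero_of_closure {Γ : Type*} [Group Γ] {Y : Set Γ}
    (hY : Subgroup.closure Y = ⊤) {B : Type*} [AddCommGroup B] (θ : Additive Γ →+ B)
    (h : ∀ y ∈ Y, θ (Additive.ofMul y) = 0) : θ = 0 := by
  refine AddMonoidHom.ext fun γ => ?_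
  refine forall_of_closure_top hY (fun γ => θ (Additive.ofMul γ) = 0) h ?_ ?_ ?_
    (Additive.toMul γ)
  · rw [ofMul_one, map_zero]
  · intro a b ha hb
    rw [ofMul_mul, map_add, ha, hb, add_zero]
  · intro a ha
    rw [ofMul_inv, map_neg, ha, neg_zero]

/-- Integer valued homomorphisms as complex valued ones. -/
noncomputable def intToComplex (Γ : Type*) [Group Γ] :
    (Additive Γ →+ ℤ) →+ (Additive Γ →+ ℂ) :=
  AddMonoidHom.compHom (Int.castAddHom ℂ)

@[simp] lemma intToComplex_apply {Γ : Type*} [Group Γ] (χ : Additive Γ →+ ℤ) (γ : Additive Γ) :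
    intToComplex Γ χ γ = (χ γ : ℂ) := rfl

/-- A rational valued homomorphism on a finitely generated group has a multiple with integer
values. -/
lemma exists_int_multiple {Γ : Type*} [Group Γ] {Y : Set Γ} (hY : Subgroup.closure Y = ⊤)
    (hfin : Y.Finite) (θ : Additive Γ →+ ℚ) :
    ∃ (M : ℕ) (_ : M ≠ 0) (χ : Additive Γ →+ ℤ), ∀ γ, (χ γ : ℚ) = M * θ γ := by
  classical
  set M : ℕ := ∏ y ∈ hfin.toFinset, (θ (Additive.ofMul y)).den with hM
  have hM0 : M ≠ 0 := by
    rw [hM]
    exact Finset.prod_ne_zero_iff.mpr fun y _ => (θ (Additive.ofMul y)).den_nz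
  have hint : ∀ γ : Γ, ∃ k : ℤ, (k : ℚ) = M * θ (Additive.ofMul γ) := by
    refine forall_of_closure_top hY (fun γ => ∃ k : ℤ, (k : ℚ) = M * θ (Additive.ofMul γ))
      ?_ ?_ ?_ ?_
    · intro y hy
      have hdvd : (θ (Additive.ofMul y)).den ∣ M :=
        Finset.dvd_prod_of_mem _ (hfin.mem_toFinset.mpr hy)
      obtain ⟨c, hc⟩ := hdvd
      refine ⟨c * (θ (Additive.ofMul y)).num, ?_⟩
      rw [hc]
      push_cast
      have := Rat.den_mul_eq_num (θ (Additive.ofMul y))
      -- den * q = num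
      linear_combination (-(c : ℚ)) * this
    · exact ⟨0, by simp⟩
    · rintro a b ⟨k, hk⟩ ⟨l, hl⟩
      refine ⟨k + l, ?_⟩
      rw [ofMul_mul, map_add]
      push_cast
      rw [hk, hl]
      ring
    · rintro a ⟨k, hk⟩
      refine ⟨-k, ?_⟩
      rw [ofMul_inv, map_neg]
      push_cast
      rw [hk]
      ring
  choose k hk using hint
  refine ⟨M, hM0, ?_, ?_⟩
  · exact
      { toFun := fun γ => k (Additive.toMul γ)
        map_zero' := by
          have := hk 1
          rw [ofMul_one, map_zero, mul_zero] at this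
          exact_mod_cast this
        map_add' := by
          intro a b
          have h1 := hk (Additive.toMul a)
          have h2 := hk (Additive.toMul b)
          have h3 := hk (Additive.toMul (a + b))
          rw [toMul_add, ofMul_mul, map_add] at h3
          have : ((k (Additive.toMul a * Additive.toMul b) : ℤ) : ℚ)
              = ((k (Additive.toMul a) + k (Additive.toMul b) : ℤ) : ℚ) := by
            push_cast
            rw [h3, h1, h2]
            ring
          exact_mod_cast this }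
  · intro γ
    exact hk (Additive.toMul γ)


/-- **Rational structure.** The complex parabolic homomorphisms of `Γ₀(N)` are spanned over `ℂ`
by the integer valued ones. -/
theorem parabolic_le_span_int (N : ℕ) [NeZero N] :
    parabolicHoms ℂ (Gamma0 N) ℂ ≤
      Submodule.span ℂ ((intToComplex (Gamma0 N)) ''
        {χ : Additive (Gamma0 N) →+ ℤ | IsParabolicHom (Gamma0 N) χ}) := by
  classical
  intro φ hφ
  obtain ⟨Y, hY, hfin⟩ := Group.fg_iff.mp (Fermat.Agent.S22.gamma0_fg N)
  set b := Basis.ofVectorSpace ℚ ℂ with hb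
  set φq : Basis.ofVectorSpaceIndex ℚ ℂ → (Additive (Gamma0 N) →+ ℚ) :=
    fun i => (b.coord i).toAddMonoidHom.comp φ with hφq
  have hφq_apply : ∀ i γ, φq i γ = b.repr (φ γ) i := fun i γ => rfl
  set I₀ : Finset (Basis.ofVectorSpaceIndex ℚ ℂ) :=
    hfin.toFinset.biUnion (fun y => (b.repr (φ (Additive.ofMul y))).support) with hI₀
  have h1 : ∀ i, i ∉ I₀ → φq i = 0 := by
    intro i hi
    apply addHom_eq_zero_of_closure hY
    intro y hy
    rw [hφq_apply]
    by_contra hne
    apply hi
    rw [hI₀, Finset.mem_biUnion]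
    exact ⟨y, hfin.mem_toFinset.mpr hy, Finsupp.mem_support_iff.mpr hne⟩
  have h2 : ∀ γ, φ γ = ∑ i ∈ I₀, ((φq i γ : ℚ) : ℂ) * b i := by
    intro γ
    have hrepr := b.linearCombination_repr (φ γ)
    rw [Finsupp.linearCombination_apply] at hrepr
    have hsub : (b.repr (φ γ)).support ⊆ I₀ := by
      intro i hi
      by_contra hni
      have := h1 i hni
      have h0 : φq i γ = 0 := by rw [this]; rfl
      rw [hφq_apply] at h0
      exact (Finsupp.mem_support_iff.mp hi) h0
    have hsum := Finsupp.sum_of_support_subset (b.repr (φ γ)) hsub (fun i a => a • b i)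
      (fun i _ => zero_smul _ _)
    rw [hsum] at hrepr
    rw [← hrepr]
    refine Finset.sum_congr rfl fun i _ => ?_
    rw [hφq_apply, Rat.smul_def]
  have h3 : ∀ i, IsParabolicHom (Gamma0 N) (φq i) := by
    intro i γ hγ
    rw [hφq_apply, hφ γ hγ, map_zero]
    rfl
  choose M hM0 χ hχ using fun i => exists_int_multiple hY hfin (φq i)
  have h4 : ∀ i, IsParabolicHom (Gamma0 N) (χ i) := by
    intro i γ hγ
    have := hχ i (Additive.ofMul γ)
    rw [h3 i γ hγ, mul_zero] at this
    exact_mod_cast this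
  have h5 : φ = ∑ i ∈ I₀, ((b i) / (M i : ℂ)) • intToComplex _ (χ i) := by
    refine AddMonoidHom.ext fun γ => ?_
    rw [h2 γ, AddMonoidHom.finsetSum_apply]
    refine Finset.sum_congr rfl fun i _ => ?_
    rw [AddMonoidHom.smul_apply, intToComplex_apply, smul_eq_mul]
    have hM : ((M i : ℕ) : ℂ) ≠ 0 := Nat.cast_ne_zero.mpr (hM0 i)
    have h6 : ((χ i γ : ℤ) : ℂ) = (M i : ℂ) * ((φq i γ : ℚ) : ℂ) := by
      have := congrArg (fun q : ℚ => (q : ℂ)) (hχ i γ)
      simpa using this
    rw [h6]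
    field_simp
  rw [h5]
  exact Submodule.sum_mem _ fun i _ =>
    Submodule.smul_mem _ _ (Submodule.subset_span ⟨χ i, h4 i, rfl⟩)

end Rational

end Fermat.Agent.S16
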