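import Mathlib
import Fermat.Agent.S16.LB.LiftA

/-!
# S16, lower bound, package LB2 (part B): lifting homomorphisms `Γ₀(N) → ℤ/M` to `ℤ`

`S16_exists_lift`: every homomorphism `Γ₀(N) → ℤ/M` which vanishes on the elements of trace
`0, ±1, ±2` is the reduction of an integer valued parabolic homomorphism.
-/

set_option autoImplicit false

open Matrix MatrixGroups ModularGroup CongruenceSubgroup Matrix.SpecialLinearGroup Module
open ModularCurve ModularCurve.Period

namespace Fermat.Agent.S16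

section Integral

variable (N : ℕ) [NeZero N]

/-- The integer valued parabolic homomorphisms. -/
abbrev parInt : Submodule ℤ (Additive (Gamma0 N) →+ ℤ) := parabolicHoms ℤ (Gamma0 N) ℤ

omit [NeZero N] in
lemma mem_parInt {χ : Additive (Gamma0 N) →+ ℤ} :
    χ ∈ parInt N ↔ IsParabolicHom (Gamma0 N) χ := Iff.rfl

/-- `Hom(Γ₀(N), ℤ)` is a finitely generated `ℤ`-module. -/
theorem finite_addHom_int : Module.Finite ℤ (Additive (Gamma0 N) →+ ℤ) := by
  classical
  obtain ⟨Y, hY, hfin⟩ := Group.fg_iff.mp (Fermat.Agent.S22.gamma0_fg N)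
  have : Finite Y := hfin
  let ev : (Additive (Gamma0 N) →+ ℤ) →ₗ[ℤ] (Y → ℤ) :=
    { toFun := fun χ y => χ (Additive.ofMul (y : Gamma0 N))
      map_add' := fun _ _ => rfl
      map_smul' := fun _ _ => rfl }
  have hinj : Function.Injective ev := by
    rw [← LinearMap.ker_eq_bot, LinearMap.ker_eq_bot']
    intro χ hχ
    apply addHom_eq_zero_of_closure hY
    intro y hy
    exact congrFun hχ ⟨y, hy⟩
  exact Module.Finite.of_injective ev hinj

theorem isNoetherian_addHom_int : IsNoetherian ℤ (Additive (Gamma0 N) →+ ℤ) := by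
  have := finite_addHom_int N
  infer_instance

theorem finite_parInt : Module.Finite ℤ (parInt N) := by
  have := isNoetherian_addHom_int N
  infer_instance

omit [NeZero N] in
theorem isAddTorsionFree_addHom_int : IsAddTorsionFree (Additive (Gamma0 N) →+ ℤ) where
  nsmul_right_injective n hn a b hab := by
    refine AddMonoidHom.ext fun γ => ?_
    have h : n • a γ = n • b γ := by
      have := congrArg (fun f : Additive (Gamma0 N) →+ ℤ => f γ) hab
      simpa using this
    exact nsmul_right_injective hn h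

omit [NeZero N] in
theorem isAddTorsionFree_parInt : IsAddTorsionFree (parInt N) where
  nsmul_right_injective n hn a b hab := by
    apply Subtype.ext
    have h : n • (a : Additive (Gamma0 N) →+ ℤ) = n • (b : Additive (Gamma0 N) →+ ℤ) :=
      congrArg Subtype.val hab
    exact (isAddTorsionFree_addHom_int N).nsmul_right_injective hn h

theorem free_parInt : Module.Free ℤ (parInt N) := by
  have := finite_parInt N
  have := isAddTorsionFree_parInt N
  exact Module.free_of_finite_type_torsion_free'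

/-- `dim_ℂ Hom_par(Γ₀(N), ℂ) ≤ rank_ℤ Hom_par(Γ₀(N), ℤ)`. -/
theorem finrank_parabolicHoms_le_finrank_parInt :
    finrank ℂ (parabolicHoms ℂ (Gamma0 N) ℂ) ≤ finrank ℤ (parInt N) := by
  classical
  have := finite_parInt N
  have := free_parInt N
  set bA := Module.Free.chooseBasis ℤ (parInt N) with hbA
  set g : Module.Free.ChooseBasisIndex ℤ (parInt N) → (Additive (Gamma0 N) →+ ℂ) :=
    fun j => intToComplex (Gamma0 N) (bA j : Additive (Gamma0 N) →+ ℤ) with hg
  have hle : parabolicHoms ℂ (Gamma0 N) ℂ ≤ Submodule.span ℂ (Set.range g) := by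
    refine (parabolic_le_span_int N).trans (Submodule.span_le.mpr ?_)
    rintro _ ⟨χ, hχ, rfl⟩
    have hrepr := bA.sum_repr ⟨χ, hχ⟩
    have h1 : χ = ∑ j, (bA.repr ⟨χ, hχ⟩ j) • (bA j : Additive (Gamma0 N) →+ ℤ) := by
      have := congrArg Subtype.val hrepr
      simp only [AddSubmonoidClass.coe_finsetSum, Submodule.coe_smul] at this
      exact this.symm
    have h2 : intToComplex (Gamma0 N) χ
        = ∑ j, ((bA.repr ⟨χ, hχ⟩ j : ℤ) : ℂ) • g j := by
      conv_lhs => rw [h1]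
      rw [map_sum]
      refine Finset.sum_congr rfl fun j _ => ?_
      rw [map_zsmul, hg]
      refine AddMonoidHom.ext fun γ => ?_
      simp [AddMonoidHom.smul_apply]
    rw [SetLike.mem_coe, h2]
    exact Submodule.sum_mem _ fun j _ =>
      Submodule.smul_mem _ _ (Submodule.subset_span ⟨j, rfl⟩)
  have : FiniteDimensional ℂ (Submodule.span ℂ (Set.range g)) :=
    FiniteDimensional.span_of_finite ℂ (Set.finite_range g)
  have h3 : finrank ℂ (parabolicHoms ℂ (Gamma0 N) ℂ)
      ≤ finrank ℂ (Submodule.span ℂ (Set.range g)) := Submodule.finrank_mono hle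
  have h4 := finrank_range_le_card (R := ℂ) g
  rw [Module.finrank_eq_card_chooseBasisIndex (R := ℤ) (M := parInt N)]
  exact h3.trans h4

end Integral


section Reduction

/-- Reduction mod `M` of integer valued homomorphisms. -/
noncomputable def redMod (M : ℕ) (Γ : Type*) [Group Γ] :
    (Additive Γ →+ ℤ) →+ (Additive Γ →+ ZMod M) :=
  AddMonoidHom.compHom (Int.castAddHom (ZMod M))

@[simp] lemma redMod_apply (M : ℕ) {Γ : Type*} [Group Γ] (χ : Additive Γ →+ ℤ)
    (γ : Additive Γ) : redMod M Γ χ γ = ((χ γ : ℤ) : ZMod M) := rfl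

variable {N : ℕ}

/-- Saturation: a parabolic homomorphism which is `≡ 0 mod M` is `M` times a parabolic
homomorphism. -/
lemma exists_div_of_redMod_eq_zero {M : ℕ} (hM : M ≠ 0) {χ : Additive (Gamma0 N) →+ ℤ}
    (hχ : χ ∈ parInt N) (h : redMod M _ χ = 0) :
    ∃ χ' : Additive (Gamma0 N) →+ ℤ, χ' ∈ parInt N ∧ χ = M • χ' := by
  have hdvd : ∀ γ, (M : ℤ) ∣ χ γ := by
    intro γ
    have := congrArg (fun f : Additive (Gamma0 N) →+ ZMod M => f γ) h
    simp only [redMod_apply, AddMonoidHom.zero_apply] at this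
    exact (ZMod.intCast_zmod_eq_zero_iff_dvd _ _).mp this
  have hM' : (M : ℤ) ≠ 0 := by exact_mod_cast hM
  let χ' : Additive (Gamma0 N) →+ ℤ :=
    { toFun := fun γ => χ γ / (M : ℤ)
      map_zero' := by simp
      map_add' := by
        intro a b
        rw [map_add, Int.add_ediv_of_dvd_left (hdvd a)] }
  refine ⟨χ', ?_, ?_⟩
  · intro γ hγ
    show χ (Additive.ofMul γ) / (M : ℤ) = 0
    rw [hχ γ hγ, Int.zero_ediv]
  · refine AddMonoidHom.ext fun γ => ?_
    show χ γ = (M • χ') γ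
    rw [AddMonoidHom.smul_apply]
    show χ γ = M • (χ γ / (M : ℤ))
    rw [nsmul_eq_mul, Int.mul_ediv_cancel' (hdvd γ)]

variable [NeZero N]

omit [NeZero N] in
lemma redMod_mem_ellHoms (ℓ : ℕ) [Fact ℓ.Prime] {χ : Additive (Gamma0 N) →+ ℤ}
    (hχ : χ ∈ parInt N) : redMod ℓ _ χ ∈ parHomsF (ZMod ℓ) (Gamma0 N) ellPred := by
  intro γ hγ
  rw [redMod_apply, ell_of_parabolic χ hχ γ hγ, Int.cast_zero]

omit [NeZero N] in
/-- The reductions mod `ℓ` of a `ℤ`-basis of the parabolic homomorphisms are linearly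
independent. -/
theorem linearIndependent_redMod (ℓ : ℕ) [Fact ℓ.Prime] {ι : Type*} [Fintype ι]
    (bA : Basis ι ℤ (parInt N)) :
    LinearIndependent (ZMod ℓ)
      (fun j => redMod ℓ _ (bA j : Additive (Gamma0 N) →+ ℤ)) := by
  classical
  rw [Fintype.linearIndependent_iff]
  intro c hc j
  set X : parInt N := ∑ i, ((c i).val : ℤ) • bA i with hX
  have hred : redMod ℓ _ (X : Additive (Gamma0 N) →+ ℤ) = 0 := by
    rw [← hc, hX]
    simp only [AddSubmonoidClass.coe_finsetSum, Submodule.coe_smul, map_sum, map_zsmul]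
    refine Finset.sum_congr rfl fun i _ => ?_
    refine AddMonoidHom.ext fun γ => ?_
    simp only [AddMonoidHom.smul_apply, redMod_apply, zsmul_eq_mul, smul_eq_mul]
    push_cast
    rw [ZMod.natCast_zmod_val]
  obtain ⟨χ', hχ', hX'⟩ := exists_div_of_redMod_eq_zero (Fact.out : ℓ.Prime).ne_zero X.2 hred
  have hX2 : X = ℓ • (⟨χ', hχ'⟩ : parInt N) := Subtype.ext hX'
  have h1 : bA.repr X j = ((c j).val : ℤ) := by
    rw [hX, map_sum]
    simp only [map_zsmul, Basis.repr_self, Finsupp.coe_finsetSum, Finset.sum_apply,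
      Finsupp.smul_apply, Finsupp.single_apply, smul_eq_mul, mul_ite, mul_one, mul_zero,
      Finset.sum_ite_eq', Finset.mem_univ, if_true]
  have h2 : bA.repr X j = ℓ * bA.repr (⟨χ', hχ'⟩ : parInt N) j := by
    rw [hX2, map_nsmul]
    simp
  have h3 : ((c j).val : ZMod ℓ) = 0 := by
    have : (((c j).val : ℤ) : ZMod ℓ) = ((ℓ * bA.repr (⟨χ', hχ'⟩ : parInt N) j : ℤ) : ZMod ℓ) := by
      rw [← h1, h2]
    push_cast at this
    rw [this]
    simp
  rwa [ZMod.natCast_zmod_val] at h3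

/-- **Lifting, prime case.** -/
theorem exists_lift_prime (ℓ : ℕ) [Fact ℓ.Prime] (ψ : Additive (Gamma0 N) →+ ZMod ℓ)
    (hψ : ψ ∈ parHomsF (ZMod ℓ) (Gamma0 N) ellPred) :
    ∃ χ : Additive (Gamma0 N) →+ ℤ, χ ∈ parInt N ∧ redMod ℓ _ χ = ψ := by
  classical
  have hfin := finite_parInt N
  have hfree := free_parInt N
  set bA := Module.Free.chooseBasis ℤ (parInt N) with hbA
  set W := parHomsF (ZMod ℓ) (Gamma0 N) ellPred with hW
  have hfdW : FiniteDimensional (ZMod ℓ) (Additive (Gamma0 N) →+ ZMod ℓ) :=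
    (finrank_ellHoms_le N (ZMod ℓ)).1
  set v : Module.Free.ChooseBasisIndex ℤ (parInt N) → W :=
    fun j => ⟨redMod ℓ _ (bA j : Additive (Gamma0 N) →+ ℤ), redMod_mem_ellHoms ℓ (bA j).2⟩
    with hv
  have hli : LinearIndependent (ZMod ℓ) v := by
    have := linearIndependent_redMod (N := N) ℓ bA
    exact LinearIndependent.of_comp W.subtype this
  have hcard1 : Fintype.card (Module.Free.ChooseBasisIndex ℤ (parInt N)) ≤ finrank (ZMod ℓ) W :=
    hli.fintype_card_le_finrank
  have hcard2 : finrank (ZMod ℓ) W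
      ≤ Fintype.card (Module.Free.ChooseBasisIndex ℤ (parInt N)) := by
    rw [← Module.finrank_eq_card_chooseBasisIndex (R := ℤ) (M := parInt N)]
    exact (finrank_ellHoms_le_finrank N (ZMod ℓ)).trans
      (finrank_parabolicHoms_le_finrank_parInt N)
  have hspan : Submodule.span (ZMod ℓ) (Set.range v) = ⊤ :=
    hli.span_eq_top_of_card_eq_finrank' (le_antisymm hcard1 hcard2)
  have hmem : (⟨ψ, hψ⟩ : W) ∈ Submodule.span (ZMod ℓ) (Set.range v) := by
    rw [hspan]; exact Submodule.mem_top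
  obtain ⟨c, hc⟩ := (Submodule.mem_span_range_iff_exists_fun (ZMod ℓ)).mp hmem
  refine ⟨((∑ i, ((c i).val : ℤ) • bA i : parInt N) : Additive (Gamma0 N) →+ ℤ),
    (∑ i, ((c i).val : ℤ) • bA i : parInt N).2, ?_⟩
  have hc' := congrArg Subtype.val hc
  simp only [AddSubmonoidClass.coe_finsetSum, Submodule.coe_smul, hv] at hc'
  rw [← hc']
  simp only [AddSubmonoidClass.coe_finsetSum, Submodule.coe_smul, map_sum, map_zsmul]
  refine Finset.sum_congr rfl fun i _ => ?_
  refine AddMonoidHom.ext fun γ => ?_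
  simp only [AddMonoidHom.smul_apply, redMod_apply, zsmul_eq_mul, smul_eq_mul]
  push_cast
  rw [ZMod.natCast_zmod_val]


end Reduction

section General

/-- Multiplication by `ℓ` as a map `ℤ/M' → ℤ/(ℓ M')`. -/
noncomputable def mulEmb (ℓ M' : ℕ) : ZMod M' →+ ZMod (ℓ * M') :=
  ZMod.lift M' ⟨(AddMonoidHom.mulLeft ((ℓ : ℕ) : ZMod (ℓ * M'))).comp
      (Int.castAddHom (ZMod (ℓ * M'))), by
    show ((ℓ : ℕ) : ZMod (ℓ * M')) * (((M' : ℕ) : ℤ) : ZMod (ℓ * M')) = 0
    have : (((ℓ * M' : ℕ)) : ZMod (ℓ * M')) = 0 := ZMod.natCast_self _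
    push_cast at this ⊢
    exact this⟩

lemma mulEmb_intCast (ℓ M' : ℕ) (k : ℤ) :
    mulEmb ℓ M' (k : ZMod M') = ((ℓ * k : ℤ) : ZMod (ℓ * M')) := by
  unfold mulEmb
  rw [ZMod.lift_coe]
  show ((ℓ : ℕ) : ZMod (ℓ * M')) * ((k : ℤ) : ZMod (ℓ * M')) = _
  push_cast
  rfl

lemma mulEmb_injective (ℓ M' : ℕ) (hℓ : ℓ ≠ 0) : Function.Injective (mulEmb ℓ M') := by
  rw [injective_iff_map_eq_zero]
  intro x hx
  obtain ⟨k, rfl⟩ := ZMod.intCast_surjective x
  rw [mulEmb_intCast, ZMod.intCast_zmod_eq_zero_iff_dvd] at hx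
  rw [ZMod.intCast_zmod_eq_zero_iff_dvd]
  push_cast at hx
  exact (mul_dvd_mul_iff_left (by exact_mod_cast hℓ)).mp hx

lemma exists_mulEmb_eq (ℓ M' : ℕ) (y : ZMod (ℓ * M'))
    (hy : ZMod.castHom (Dvd.intro M' rfl) (ZMod ℓ) y = 0) :
    ∃ x : ZMod M', mulEmb ℓ M' x = y := by
  obtain ⟨k, rfl⟩ := ZMod.intCast_surjective y
  rw [map_intCast, ZMod.intCast_zmod_eq_zero_iff_dvd] at hy
  obtain ⟨k', rfl⟩ := hy
  exact ⟨(k' : ZMod M'), by rw [mulEmb_intCast]⟩

variable {N : ℕ} [NeZero N]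

/-- **Package LB2: lifting.** Every homomorphism `Γ₀(N) → ℤ/M` which vanishes on the elements of
trace `0, ±1, ±2` is the reduction of an integer valued parabolic homomorphism. -/
theorem S16_exists_lift (M : ℕ) (hM : M ≠ 0) (ψ : Additive (Gamma0 N) →+ ZMod M)
    (hψ : ∀ γ : Gamma0 N, ellPred (γ : SL(2, ℤ)) → ψ (Additive.ofMul γ) = 0) :
    ∃ χ : Additive (Gamma0 N) →+ ℤ, IsParabolicHom (Gamma0 N) χ ∧
      ∀ γ, ((χ γ : ℤ) : ZMod M) = ψ γ := by
  induction M using Nat.strong_induction_on with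
  | _ M ih =>
    by_cases h1 : M = 1
    · subst h1
      refine ⟨0, fun _ _ => rfl, fun γ => Subsingleton.elim _ _⟩
    obtain ⟨ℓ, hℓ, hdvd⟩ := Nat.exists_prime_and_dvd h1
    obtain ⟨M', rfl⟩ := hdvd
    have : Fact ℓ.Prime := ⟨hℓ⟩
    have hM'0 : M' ≠ 0 := fun h => hM (by rw [h, mul_zero])
    have hM'lt : M' < ℓ * M' := by
      have := hℓ.one_lt
      nlinarith [Nat.pos_of_ne_zero hM'0]
    -- reduce mod ℓ and lift
    set cast : ZMod (ℓ * M') →+* ZMod ℓ := ZMod.castHom (Dvd.intro M' rfl) (ZMod ℓ) with hcast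
    set ψbar : Additive (Gamma0 N) →+ ZMod ℓ := cast.toAddMonoidHom.comp ψ with hψbar
    have hψbar_mem : ψbar ∈ parHomsF (ZMod ℓ) (Gamma0 N) ellPred := by
      intro γ hγ
      show cast (ψ (Additive.ofMul γ)) = 0
      rw [hψ γ hγ, map_zero]
    obtain ⟨χ₁, hχ₁, hχ₁red⟩ := exists_lift_prime ℓ ψbar hψbar_mem
    -- the difference is divisible by ℓ
    set δ : Additive (Gamma0 N) →+ ZMod (ℓ * M') := ψ - redMod (ℓ * M') _ χ₁ with hδ
    have hδ0 : ∀ γ, cast (δ γ) = 0 := by
      intro γ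
      have := congrArg (fun f : Additive (Gamma0 N) →+ ZMod ℓ => f γ) hχ₁red
      simp only [redMod_apply] at this
      rw [hδ, AddMonoidHom.sub_apply, map_sub, redMod_apply, map_intCast, this]
      show cast (ψ γ) - cast (ψ γ) = 0
      rw [sub_self]
    choose ψ'fun hψ'fun using fun γ => exists_mulEmb_eq ℓ M' (δ γ) (hδ0 γ)
    have hinj := mulEmb_injective ℓ M' hℓ.ne_zero
    let ψ' : Additive (Gamma0 N) →+ ZMod M' :=
      { toFun := ψ'fun
        map_zero' := by
          apply hinj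
          rw [hψ'fun, map_zero, map_zero]
        map_add' := by
          intro a b
          apply hinj
          rw [map_add, hψ'fun, hψ'fun, hψ'fun, map_add] }
    have hψ'ell : ∀ γ : Gamma0 N, ellPred (γ : SL(2, ℤ)) → ψ' (Additive.ofMul γ) = 0 := by
      intro γ hγ
      apply hinj
      show mulEmb ℓ M' (ψ'fun (Additive.ofMul γ)) = mulEmb ℓ M' 0
      rw [hψ'fun, map_zero, hδ, AddMonoidHom.sub_apply, hψ γ hγ, redMod_apply,
        ell_of_parabolic χ₁ hχ₁ γ hγ, Int.cast_zero, sub_zero]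
    obtain ⟨χ₂, hχ₂, hχ₂red⟩ := ih M' hM'lt hM'0 ψ' hψ'ell
    refine ⟨χ₁ + ℓ • χ₂, ?_, ?_⟩
    · intro γ hγ
      rw [AddMonoidHom.add_apply, AddMonoidHom.smul_apply, hχ₁ γ hγ, hχ₂ γ hγ]
      simp
    · intro γ
      have h2 := hχ₂red γ
      have h3 : mulEmb ℓ M' (ψ' γ) = δ γ := hψ'fun γ
      rw [← h2, mulEmb_intCast, hδ, AddMonoidHom.sub_apply, redMod_apply] at h3
      rw [AddMonoidHom.add_apply, AddMonoidHom.smul_apply]
      push_cast at h3 ⊢
      rw [nsmul_eq_mul]
      push_cast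
      linear_combination h3

end General

end Fermat.Agent.S16
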