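import Mathlib
import Fermat.Prelude.Def_ModularCurve_PeriodMap
import Fermat.Prelude.Def_ModularCurve_ModularUnit
import Fermat.Prelude.Sol.S_ModularForm_heckeT_slash_eq_self_of_mem_Gamma0

/-!
# S16, lower bound, piece LB4 of `NOTES/items/15_LB_plan.md`: the Shimura class

`φ_Sh : Γ₀(p) → (ℤ/p)ˣ → ℤ/n`, `n = (p-1)/gcd(p-1,12)`, `γ ↦ log (γ₁₁ mod p)`.

* `shimuraClass p : Additive (Gamma0 p) →+ ZMod (eisensteinNumerator p)`  (`= S16_shimura p`)
* `shimuraClass_ell` : it kills every `γ` with `tr² ≤ 4` (parabolic, central and elliptic elements);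
  `shimuraClass_isParabolicHom`
* `shimuraClass_surjective`, `shimuraClass_surj`
* `shimuraClass_heckeT` : `∑_i φ_Sh (g' i) = (ℓ + 1) * φ_Sh γ` whenever
  `heckeRep ℓ i * γ = g' i * heckeRep ℓ (σ i)` (arbitrary permutation `σ`)
* `shimuraClass_heckeU` : `∑_i φ_Sh (g' i) = φ_Sh γ` whenever
  `heckeMatrix p i * γ = g' i * heckeMatrix p (σ i)`
-/

set_option autoImplicit false

open CongruenceSubgroup Matrix.SpecialLinearGroup
open scoped MatrixGroups
open P2MW.S_ModularForm_heckeT_slash_eq_self_of_mem_Gamma0.ModularForm.HeckeSlashInvariance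
open ModularForm

namespace Fermat.Agent.S16

section log

variable (p : ℕ)

/-- `n ∣ p - 1`. -/
theorem S16_numerator_dvd : ModularCurve.eisensteinNumerator p ∣ p - 1 := by
  unfold ModularCurve.eisensteinNumerator
  exact Nat.div_dvd_of_dvd (Nat.gcd_dvd_left _ _)

variable [Fact p.Prime]

theorem S16_card_units : Nat.card (ZMod p)ˣ = p - 1 := by
  rw [Nat.card_eq_fintype_card, ZMod.card_units]

theorem S16_numerator_dvd_card : ModularCurve.eisensteinNumerator p ∣ Nat.card (ZMod p)ˣ := by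
  rw [S16_card_units]; exact S16_numerator_dvd p

/-- the discrete logarithm `(ℤ/p)ˣ → ℤ/n`. -/
noncomputable def S16_log : Additive (ZMod p)ˣ →+ ZMod (ModularCurve.eisensteinNumerator p) :=
  (ZMod.castHom (S16_numerator_dvd_card p) (ZMod (ModularCurve.eisensteinNumerator p))).toAddMonoidHom.comp
    (MonoidHom.toAdditiveLeft (zmodCyclicMulEquiv (inferInstance : IsCyclic (ZMod p)ˣ)).symm.toMonoidHom)

theorem S16_log_mul (u v : (ZMod p)ˣ) :
    S16_log p (Additive.ofMul (u * v))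
      = S16_log p (Additive.ofMul u) + S16_log p (Additive.ofMul v) := by
  rw [ofMul_mul, map_add]

theorem S16_log_surjective : Function.Surjective (S16_log p) := by
  intro y
  obtain ⟨x, hx⟩ := ZMod.castHom_surjective (S16_numerator_dvd_card p) y
  refine ⟨Additive.ofMul ((zmodCyclicMulEquiv (inferInstance : IsCyclic (ZMod p)ˣ)) (Multiplicative.ofAdd x)), ?_⟩
  simp only [S16_log, AddMonoidHom.coe_comp, Function.comp_apply]
  simpa using hx

/-- arithmetic core: `12 x ≡ 0 mod (p - 1)` implies `x ≡ 0 mod n`. -/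
theorem S16_dvd_of_twelve_mul {m : ℕ} (x : ℕ) (h : m ∣ 12 * x) : m / Nat.gcd m 12 ∣ x := by
  rcases Nat.eq_zero_or_pos m with rfl | hm
  · simp at h
    simp [h]
  have hg : 0 < Nat.gcd m 12 := Nat.gcd_pos_of_pos_left _ hm
  have hcop : Nat.Coprime (m / Nat.gcd m 12) (12 / Nat.gcd m 12) := Nat.coprime_div_gcd_div_gcd hg
  have h1 : m / Nat.gcd m 12 ∣ (12 / Nat.gcd m 12) * x := by
    have hm' : m = Nat.gcd m 12 * (m / Nat.gcd m 12) := (Nat.mul_div_cancel' (Nat.gcd_dvd_left m 12)).symm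
    have h12 : 12 = Nat.gcd m 12 * (12 / Nat.gcd m 12) := (Nat.mul_div_cancel' (Nat.gcd_dvd_right m 12)).symm
    have h2 : Nat.gcd m 12 * (m / Nat.gcd m 12) ∣ Nat.gcd m 12 * ((12 / Nat.gcd m 12) * x) := by
      rw [← mul_assoc, ← h12, ← hm']; exact h
    exact (Nat.mul_dvd_mul_iff_left hg).mp h2
  exact hcop.dvd_of_dvd_mul_left h1

theorem S16_log_eq_zero_of_pow_twelve (u : (ZMod p)ˣ) (hu : u ^ 12 = 1) :
    S16_log p (Additive.ofMul u) = 0 := by
  set e := zmodCyclicMulEquiv (inferInstance : IsCyclic (ZMod p)ˣ) with he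
  set x : ZMod (Nat.card (ZMod p)ˣ) := Multiplicative.toAdd (e.symm u) with hx
  have h12 : (12 : ℕ) • x = 0 := by
    have : e.symm (u ^ 12) = 1 := by rw [hu, map_one]
    rw [map_pow] at this
    have h2 : Multiplicative.toAdd ((e.symm u) ^ 12) = 0 := by rw [this]; rfl
    rwa [toAdd_pow] at h2
  have hval : S16_log p (Additive.ofMul u)
      = (ZMod.castHom (S16_numerator_dvd_card p) (ZMod (ModularCurve.eisensteinNumerator p))) x := rfl
  rw [hval]
  have hcard : Nat.card (ZMod p)ˣ = p - 1 := S16_card_units p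
  have : NeZero (Nat.card (ZMod p)ˣ) := ⟨by
    rw [hcard]
    have := (Fact.out : p.Prime).two_le
    omega⟩
  have hxv : ((x.val : ℕ) : ZMod (Nat.card (ZMod p)ˣ)) = x := ZMod.natCast_zmod_val x
  have hdvd : Nat.card (ZMod p)ˣ ∣ 12 * x.val := by
    rw [← ZMod.natCast_eq_zero_iff]
    push_cast
    rw [hxv]
    simpa [nsmul_eq_mul] using h12
  have hn : ModularCurve.eisensteinNumerator p ∣ x.val := by
    have key : ModularCurve.eisensteinNumerator p
        = Nat.card (ZMod p)ˣ / (Nat.card (ZMod p)ˣ).gcd 12 := by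
      unfold ModularCurve.eisensteinNumerator
      rw [hcard]
    rw [key]
    exact S16_dvd_of_twelve_mul x.val hdvd
  rw [← hxv, map_natCast]
  exact (ZMod.natCast_eq_zero_iff _ _).mpr hn

end log

section dUnit

variable (p : ℕ) [Fact p.Prime]

theorem S16_gamma0_entry (γ : Gamma0 p) : (((γ : SL(2, ℤ)) 1 0 : ℤ) : ZMod p) = 0 :=
  Gamma0_mem.mp γ.2

theorem S16_gamma0_unit (γ : Gamma0 p) :
    (((γ : SL(2, ℤ)) 1 1 : ℤ) : ZMod p) * (((γ : SL(2, ℤ)) 0 0 : ℤ) : ZMod p) = 1 := by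
  have h := unit_of_apply_one_zero_eq_zero (p := p) (γ : SL(2, ℤ)) (S16_gamma0_entry p γ)
  rw [mul_comm]; exact h

/-- the lower right entry modulo `p`, as a unit. -/
noncomputable def S16_dUnitFun (γ : Gamma0 p) : (ZMod p)ˣ :=
  ⟨(((γ : SL(2, ℤ)) 1 1 : ℤ) : ZMod p), (((γ : SL(2, ℤ)) 0 0 : ℤ) : ZMod p),
    S16_gamma0_unit p γ, by rw [mul_comm]; exact S16_gamma0_unit p γ⟩

@[simp] theorem S16_dUnitFun_val (γ : Gamma0 p) :
    ((S16_dUnitFun p γ : (ZMod p)ˣ) : ZMod p) = (((γ : SL(2, ℤ)) 1 1 : ℤ) : ZMod p) := rfl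

theorem S16_mul_entry (γ δ : SL(2, ℤ)) :
    (γ * δ) 1 1 = γ 1 0 * δ 0 1 + γ 1 1 * δ 1 1 := by
  simp [Matrix.SpecialLinearGroup.coe_mul, Matrix.mul_apply, Fin.sum_univ_two]

/-- the lower right entry modulo `p`, as a monoid homomorphism `Γ₀(p) → (ℤ/p)ˣ`. -/
noncomputable def S16_dUnit : Gamma0 p →* (ZMod p)ˣ where
  toFun := S16_dUnitFun p
  map_one' := by
    apply Units.ext
    simp [S16_dUnitFun]
  map_mul' γ δ := by
    apply Units.ext
    rw [Units.val_mul, S16_dUnitFun_val, S16_dUnitFun_val, S16_dUnitFun_val]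
    have h : (((γ * δ : Gamma0 p) : SL(2, ℤ)) 1 1 : ℤ)
        = (γ : SL(2, ℤ)) 1 0 * (δ : SL(2, ℤ)) 0 1 + (γ : SL(2, ℤ)) 1 1 * (δ : SL(2, ℤ)) 1 1 :=
      S16_mul_entry _ _
    rw [h]
    push_cast
    rw [S16_gamma0_entry p γ]
    ring

@[simp] theorem S16_dUnit_val (γ : Gamma0 p) :
    ((S16_dUnit p γ : (ZMod p)ˣ) : ZMod p) = (((γ : SL(2, ℤ)) 1 1 : ℤ) : ZMod p) := rfl

end dUnit


section shimura

variable (p : ℕ) [Fact p.Prime]

/-- **The Shimura class** `Γ₀(p) → ℤ/n`. -/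
noncomputable def S16_shimura : Additive (Gamma0 p) →+ ZMod (ModularCurve.eisensteinNumerator p) :=
  (S16_log p).comp (MonoidHom.toAdditive (S16_dUnit p))

theorem S16_shimura_apply (γ : Gamma0 p) :
    S16_shimura p (Additive.ofMul γ) = S16_log p (Additive.ofMul (S16_dUnit p γ)) := rfl

theorem S16_dUnit_surjective : Function.Surjective (S16_dUnit p) := by
  intro u
  have hp : p.Prime := Fact.out
  have hu0 : ((u : ZMod p)).val ≠ 0 := by
    intro h
    have : (u : ZMod p) = 0 := (ZMod.val_eq_zero _).mp h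
    exact u.ne_zero this
  have hcop : IsCoprime (((u : ZMod p).val : ℕ) : ℤ) (p : ℤ) := by
    rw [Int.isCoprime_iff_gcd_eq_one, Int.gcd_natCast_natCast]
    apply Nat.Coprime.symm
    rw [Nat.Prime.coprime_iff_not_dvd hp]
    intro hdvd
    have hlt : (u : ZMod p).val < p := ZMod.val_lt _
    exact hu0 (Nat.eq_zero_of_dvd_of_lt hdvd hlt)
  obtain ⟨a, b, hab⟩ := hcop
  let g : SL(2, ℤ) := ⟨!![a, -b; (p : ℤ), (((u : ZMod p).val : ℕ) : ℤ)], by
    rw [Matrix.det_fin_two_of]; linear_combination hab⟩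
  have hg : g ∈ Gamma0 p := by
    rw [Gamma0_mem]
    show (((p : ℤ) : ℤ) : ZMod p) = 0
    simp
  refine ⟨⟨g, hg⟩, ?_⟩
  apply Units.ext
  rw [S16_dUnit_val]
  show ((((u : ZMod p).val : ℕ) : ℤ) : ZMod p) = u
  simp

theorem S16_shimura_surjective : Function.Surjective (S16_shimura p) := by
  intro y
  obtain ⟨u, hu⟩ := S16_log_surjective p y
  obtain ⟨γ, hγ⟩ := S16_dUnit_surjective p (Additive.toMul u)
  refine ⟨Additive.ofMul γ, ?_⟩
  rw [S16_shimura_apply, hγ]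
  exact hu

/-- the trace of `γ ∈ Γ₀(p)` modulo `p` is `d + d⁻¹`. -/
theorem S16_trace_mod (γ : Gamma0 p) :
    ((((γ : SL(2, ℤ)) : Matrix (Fin 2) (Fin 2) ℤ).trace : ℤ) : ZMod p)
      = (((γ : SL(2, ℤ)) 0 0 : ℤ) : ZMod p) + (((γ : SL(2, ℤ)) 1 1 : ℤ) : ZMod p) := by
  rw [Matrix.trace_fin_two]
  push_cast
  rfl

/-- **the Shimura class kills parabolic, central and elliptic elements**. -/
theorem S16_shimura_eq_zero_of_trace (γ : Gamma0 p)
    (h : ((γ : SL(2, ℤ)) : Matrix (Fin 2) (Fin 2) ℤ).trace ^ 2 = 4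
      ∨ ((γ : SL(2, ℤ)) : Matrix (Fin 2) (Fin 2) ℤ).trace = 0
      ∨ ((γ : SL(2, ℤ)) : Matrix (Fin 2) (Fin 2) ℤ).trace = 1
      ∨ ((γ : SL(2, ℤ)) : Matrix (Fin 2) (Fin 2) ℤ).trace = -1) :
    S16_shimura p (Additive.ofMul γ) = 0 := by
  rw [S16_shimura_apply]
  apply S16_log_eq_zero_of_pow_twelve
  apply Units.ext
  rw [Units.val_pow_eq_pow_val, S16_dUnit_val, Units.val_one]
  set A : ZMod p := (((γ : SL(2, ℤ)) 0 0 : ℤ) : ZMod p) with hA
  set D : ZMod p := (((γ : SL(2, ℤ)) 1 1 : ℤ) : ZMod p) with hD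
  have hDA : D * A = 1 := S16_gamma0_unit p γ
  have htr := S16_trace_mod p γ
  rw [← hA, ← hD] at htr
  rcases h with h | h | h | h
  · have h4 : (A + D) ^ 2 = 4 := by
      rw [← htr]
      have := congrArg (Int.cast : ℤ → ZMod p) h
      push_cast at this
      exact this
    have h2 : (D ^ 2 - 1) ^ 2 = 0 := by
      linear_combination D ^ 2 * h4 + (-(D * A) - 2 * D ^ 2 - 1) * hDA
    have h3 : D ^ 2 = 1 := by
      have := pow_eq_zero_iff (two_ne_zero) |>.mp h2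
      linear_combination this
    calc D ^ 12 = (D ^ 2) ^ 6 := by ring
      _ = 1 := by rw [h3]; ring
  · have h0 : A + D = 0 := by
      rw [← htr, h]; simp
    have h3 : D ^ 2 = -1 := by
      linear_combination D * h0 - hDA
    calc D ^ 12 = (D ^ 2) ^ 6 := by ring
      _ = 1 := by rw [h3]; ring
  · have h0 : A + D = 1 := by
      rw [← htr, h]; simp
    have h3 : D ^ 2 = D - 1 := by
      linear_combination D * h0 - hDA
    have h4 : D ^ 3 = -1 := by
      linear_combination (D + 1) * h3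
    calc D ^ 12 = (D ^ 3) ^ 4 := by ring
      _ = 1 := by rw [h4]; ring
  · have h0 : A + D = -1 := by
      rw [← htr, h]; simp
    have h3 : D ^ 2 = -D - 1 := by
      linear_combination D * h0 - hDA
    have h4 : D ^ 3 = 1 := by
      linear_combination (D - 1) * h3
    calc D ^ 12 = (D ^ 3) ^ 4 := by ring
      _ = 1 := by rw [h4]; ring

/-- in particular the Shimura class is a parabolic homomorphism. -/
theorem S16_shimura_isParabolicHom :
    ModularCurve.Period.IsParabolicHom (Gamma0 p) (S16_shimura p) :=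
  fun γ hγ => S16_shimura_eq_zero_of_trace p γ (Or.inl hγ)


end shimura

/-! ### Hecke sums -/

/-- entry `(1,1)` of a product with an upper triangular matrix on the left / right. -/
theorem S16_key_entry {α α' : GL (Fin 2) ℝ} {b' d d' : ℤ}
    (hα10 : α.val 1 0 = 0) (hα11 : α.val 1 1 = (d : ℝ))
    (hα'01 : α'.val 0 1 = (b' : ℝ)) (hα'11 : α'.val 1 1 = (d' : ℝ))
    (g g' : SL(2, ℤ)) (h : α * mapGL ℝ g = mapGL ℝ g' * α') :
    d * g 1 1 = g' 1 0 * b' + g' 1 1 * d' := by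
  have h1 := congrArg (fun M : GL (Fin 2) ℝ => M.val 1 1) h
  simp only [Units.val_mul, Matrix.mul_apply, Fin.sum_univ_two] at h1
  rw [hα10, hα11, hα'01, hα'11] at h1
  have e1 : ((mapGL ℝ g : GL (Fin 2) ℝ)).val 1 1 = ((g 1 1 : ℤ) : ℝ) := mapGL_apply g 1 1
  have e2 : ((mapGL ℝ g : GL (Fin 2) ℝ)).val 0 1 = ((g 0 1 : ℤ) : ℝ) := mapGL_apply g 0 1
  have e3 : ((mapGL ℝ g' : GL (Fin 2) ℝ)).val 1 0 = ((g' 1 0 : ℤ) : ℝ) := mapGL_apply g' 1 0
  have e4 : ((mapGL ℝ g' : GL (Fin 2) ℝ)).val 1 1 = ((g' 1 1 : ℤ) : ℝ) := mapGL_apply g' 1 1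
  rw [e1, e2, e3, e4] at h1
  have h2 : ((d * g 1 1 : ℤ) : ℝ) = ((g' 1 0 * b' + g' 1 1 * d' : ℤ) : ℝ) := by
    push_cast
    linear_combination h1
  exact_mod_cast h2

/-- the lower right entry of the Hecke representative. -/
def S16_repD (ℓ : ℕ) (x : OnePoint (ZMod ℓ)) : ℤ := x.elim 1 (fun _ => (ℓ : ℤ))

/-- the upper right entry of the Hecke representative. -/
def S16_repB (ℓ : ℕ) (x : OnePoint (ZMod ℓ)) : ℤ := x.elim 0 (fun j => (j.val : ℤ))

theorem S16_heckeRep_entries {ℓ : ℕ} (hℓ : ℓ ≠ 0) (x : OnePoint (ZMod ℓ)) :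
    (heckeRep ℓ x).val 1 0 = 0 ∧ (heckeRep ℓ x).val 1 1 = (S16_repD ℓ x : ℝ)
      ∧ (heckeRep ℓ x).val 0 1 = (S16_repB ℓ x : ℝ) := by
  induction x using OnePoint.rec with
  | infty =>
    rw [heckeRep_infty, val_heckeDiagMatrix hℓ]
    simp [S16_repD, S16_repB]
  | coe j =>
    rw [heckeRep_coe, val_heckeMatrix hℓ]
    simp [S16_repD, S16_repB]

theorem S16_heckeMatrix_entries {ℓ : ℕ} (hℓ : ℓ ≠ 0) (j : ℕ) :
    (heckeMatrix ℓ j).val 1 0 = 0 ∧ (heckeMatrix ℓ j).val 1 1 = ((ℓ : ℤ) : ℝ)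
      ∧ (heckeMatrix ℓ j).val 0 1 = ((j : ℤ) : ℝ) := by
  rw [val_heckeMatrix hℓ]
  simp

section hecke

variable (p : ℕ) [Fact p.Prime]

/-- `ℓ` and `1` are units modulo `p`. -/
theorem S16_repD_isUnit {ℓ : ℕ} [Fact ℓ.Prime] (hℓ : ¬ ℓ ∣ p) (x : OnePoint (ZMod ℓ)) :
    IsUnit ((S16_repD ℓ x : ℤ) : ZMod p) := by
  have hp : p.Prime := Fact.out
  have hl : ℓ.Prime := Fact.out
  have hne : ((ℓ : ℤ) : ZMod p) ≠ 0 := by
    intro h
    rw [Int.cast_natCast, ZMod.natCast_eq_zero_iff] at h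
    rcases (Nat.dvd_prime hl).mp h with h1 | h1
    · exact hp.one_lt.ne' h1
    · exact hℓ (h1 ▸ dvd_rfl)
  induction x using OnePoint.rec with
  | infty => simp [S16_repD]
  | coe j =>
    simp only [S16_repD, OnePoint.elim_some]
    exact IsUnit.mk0 _ hne

/-- `log` of the lower right entry of the representative. -/
noncomputable def S16_repLog {ℓ : ℕ} [Fact ℓ.Prime] (hℓ : ¬ ℓ ∣ p) (x : OnePoint (ZMod ℓ)) :
    ZMod (ModularCurve.eisensteinNumerator p) :=
  S16_log p (Additive.ofMul (S16_repD_isUnit p hℓ x).unit)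

theorem S16_shimura_heckeT_one {ℓ : ℕ} [Fact ℓ.Prime] (hℓ : ¬ ℓ ∣ p) (γ γ' : Gamma0 p)
    (x x' : OnePoint (ZMod ℓ))
    (hmul : heckeRep ℓ x * mapGL ℝ (γ : SL(2, ℤ)) = mapGL ℝ (γ' : SL(2, ℤ)) * heckeRep ℓ x') :
    S16_shimura p (Additive.ofMul γ') + S16_repLog p hℓ x'
      = S16_repLog p hℓ x + S16_shimura p (Additive.ofMul γ) := by
  have hl : ℓ ≠ 0 := (Fact.out : ℓ.Prime).ne_zero
  obtain ⟨h10, h11, -⟩ := S16_heckeRep_entries hl x
  obtain ⟨-, h11', h01'⟩ := S16_heckeRep_entries hl x'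
  have key := S16_key_entry h10 h11 h01' h11' (γ : SL(2, ℤ)) (γ' : SL(2, ℤ)) hmul
  have hu : S16_dUnit p γ' * (S16_repD_isUnit p hℓ x').unit
      = (S16_repD_isUnit p hℓ x).unit * S16_dUnit p γ := by
    apply Units.ext
    rw [Units.val_mul, Units.val_mul, S16_dUnit_val, S16_dUnit_val, IsUnit.unit_spec, IsUnit.unit_spec]
    have := congrArg (Int.cast : ℤ → ZMod p) key
    push_cast at this
    rw [S16_gamma0_entry p γ', zero_mul, zero_add] at this
    exact this.symm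
  rw [S16_shimura_apply, S16_shimura_apply, S16_repLog, S16_repLog, ← S16_log_mul, ← S16_log_mul, hu]

theorem S16_card_onePoint (ℓ : ℕ) [NeZero ℓ] : Fintype.card (OnePoint (ZMod ℓ)) = ℓ + 1 := by
  rw [show Fintype.card (OnePoint (ZMod ℓ)) = Fintype.card (Option (ZMod ℓ)) from rfl,
    Fintype.card_option, ZMod.card]


theorem S16_key_entry10 {α α' : GL (Fin 2) ℝ} {a' d : ℤ}
    (hα10 : α.val 1 0 = 0) (hα11 : α.val 1 1 = (d : ℝ))
    (hα'00 : α'.val 0 0 = (a' : ℝ)) (hα'10 : α'.val 1 0 = 0)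
    (g g' : SL(2, ℤ)) (h : α * mapGL ℝ g = mapGL ℝ g' * α') :
    d * g 1 0 = g' 1 0 * a' := by
  have h1 := congrArg (fun M : GL (Fin 2) ℝ => M.val 1 0) h
  simp only [Units.val_mul, Matrix.mul_apply, Fin.sum_univ_two] at h1
  rw [hα10, hα11, hα'00, hα'10] at h1
  have e1 : ((mapGL ℝ g : GL (Fin 2) ℝ)).val 1 0 = ((g 1 0 : ℤ) : ℝ) := mapGL_apply g 1 0
  have e2 : ((mapGL ℝ g : GL (Fin 2) ℝ)).val 0 0 = ((g 0 0 : ℤ) : ℝ) := mapGL_apply g 0 0
  have e3 : ((mapGL ℝ g' : GL (Fin 2) ℝ)).val 1 0 = ((g' 1 0 : ℤ) : ℝ) := mapGL_apply g' 1 0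
  have e4 : ((mapGL ℝ g' : GL (Fin 2) ℝ)).val 1 1 = ((g' 1 1 : ℤ) : ℝ) := mapGL_apply g' 1 1
  rw [e1, e2, e3, e4] at h1
  have h2 : ((d * g 1 0 : ℤ) : ℝ) = ((g' 1 0 * a' : ℤ) : ℝ) := by
    push_cast
    linear_combination h1
  exact_mod_cast h2

theorem S16_natCast_p_eq_one : ((p : ℕ) : ZMod (ModularCurve.eisensteinNumerator p)) = 1 := by
  have hp : 1 ≤ p := (Fact.out : p.Prime).one_le
  have h : ((p - 1 : ℕ) : ZMod (ModularCurve.eisensteinNumerator p)) = 0 :=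
    (ZMod.natCast_eq_zero_iff _ _).mpr (S16_numerator_dvd p)
  have h3 : (((p - 1) + 1 : ℕ) : ZMod (ModularCurve.eisensteinNumerator p)) = 1 := by
    rw [Nat.cast_add, h, zero_add, Nat.cast_one]
  have h4 : p - 1 + 1 = p := by omega
  rw [h4] at h3
  exact h3

/-- **the Shimura class** (name as in `NOTES/items/15_LB_plan.md`). -/
noncomputable def shimuraClass : Additive (Gamma0 p) →+ ZMod (ModularCurve.eisensteinNumerator p) :=
  S16_shimura p

/-- the Shimura class kills parabolic, central and elliptic elements. -/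
theorem shimuraClass_ell (γ : Gamma0 p)
    (h : ((γ : SL(2, ℤ)) : Matrix (Fin 2) (Fin 2) ℤ).trace ^ 2 ≤ 4) :
    shimuraClass p (Additive.ofMul γ) = 0 := by
  apply S16_shimura_eq_zero_of_trace
  set t := ((γ : SL(2, ℤ)) : Matrix (Fin 2) (Fin 2) ℤ).trace with ht
  have h1 : -2 ≤ t := by nlinarith
  have h2 : t ≤ 2 := by nlinarith
  interval_cases t
  · left; norm_num
  · right; right; right; rfl
  · right; left; rfl
  · right; right; left; rfl
  · left; norm_num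

theorem shimuraClass_isParabolicHom :
    ModularCurve.Period.IsParabolicHom (Gamma0 p) (shimuraClass p) :=
  S16_shimura_isParabolicHom p

theorem shimuraClass_surjective : Function.Surjective (shimuraClass p) :=
  S16_shimura_surjective p

theorem shimuraClass_surj : ∃ γ : Gamma0 p, shimuraClass p (Additive.ofMul γ) = 1 := by
  obtain ⟨γ, hγ⟩ := shimuraClass_surjective p 1
  exact ⟨Additive.toMul γ, hγ⟩

/-- **`T_ℓ φ_Sh = (ℓ + 1) φ_Sh`**, for arbitrary coset data `σ`, `g'`. -/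
theorem shimuraClass_heckeT {ℓ : ℕ} [Fact ℓ.Prime] (hℓ : ¬ ℓ ∣ p) (γ : Gamma0 p)
    (σ : Equiv.Perm (OnePoint (ZMod ℓ))) (g' : OnePoint (ZMod ℓ) → Gamma0 p)
    (hmul : ∀ i, heckeRep ℓ i * mapGL ℝ (γ : SL(2, ℤ))
      = mapGL ℝ (g' i : SL(2, ℤ)) * heckeRep ℓ (σ i)) :
    ∑ i, shimuraClass p (Additive.ofMul (g' i))
      = ((ℓ : ZMod (ModularCurve.eisensteinNumerator p)) + 1) * shimuraClass p (Additive.ofMul γ) := by
  have h1 : ∀ i, shimuraClass p (Additive.ofMul (g' i)) + S16_repLog p hℓ (σ i)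
      = S16_repLog p hℓ i + shimuraClass p (Additive.ofMul γ) :=
    fun i => S16_shimura_heckeT_one p hℓ γ (g' i) i (σ i) (hmul i)
  have h2 : ∑ i, (shimuraClass p (Additive.ofMul (g' i)) + S16_repLog p hℓ (σ i))
      = ∑ i, (S16_repLog p hℓ i + shimuraClass p (Additive.ofMul γ)) :=
    Finset.sum_congr rfl fun i _ => h1 i
  rw [Finset.sum_add_distrib, Finset.sum_add_distrib, Equiv.sum_comp σ (S16_repLog p hℓ),
    Finset.sum_const, Finset.card_univ, S16_card_onePoint, nsmul_eq_mul] at h2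
  push_cast at h2
  linear_combination h2

/-- **`U_p φ_Sh = φ_Sh`**, for arbitrary coset data `σ`, `g'`. -/
theorem shimuraClass_heckeU (γ : Gamma0 p) (σ : Equiv.Perm (ZMod p)) (g' : ZMod p → Gamma0 p)
    (hmul : ∀ i, heckeMatrix p i.val * mapGL ℝ (γ : SL(2, ℤ))
      = mapGL ℝ (g' i : SL(2, ℤ)) * heckeMatrix p (σ i).val) :
    ∑ i, shimuraClass p (Additive.ofMul (g' i)) = shimuraClass p (Additive.ofMul γ) := by
  have hp0 : p ≠ 0 := (Fact.out : p.Prime).ne_zero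
  have hone : ∀ i, shimuraClass p (Additive.ofMul (g' i)) = shimuraClass p (Additive.ofMul γ) := by
    intro i
    obtain ⟨h10, h11, -⟩ := S16_heckeMatrix_entries hp0 i.val
    obtain ⟨h10', h11', h01'⟩ := S16_heckeMatrix_entries hp0 (σ i).val
    have h00' : (heckeMatrix p (σ i).val).val 0 0 = ((1 : ℤ) : ℝ) := by
      rw [val_heckeMatrix hp0]; simp
    have k11 := S16_key_entry h10 h11 h01' h11' (γ : SL(2, ℤ)) (g' i : SL(2, ℤ)) (hmul i)
    have k10 := S16_key_entry10 h10 h11 h00' h10' (γ : SL(2, ℤ)) (g' i : SL(2, ℤ)) (hmul i)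
    rw [mul_one] at k10
    rw [← k10] at k11
    have hpz : (p : ℤ) ≠ 0 := by exact_mod_cast hp0
    have k : (γ : SL(2, ℤ)) 1 1
        = (γ : SL(2, ℤ)) 1 0 * (((σ i).val : ℕ) : ℤ) + (g' i : SL(2, ℤ)) 1 1 := by
      apply mul_left_cancel₀ hpz
      linear_combination k11
    show S16_shimura p (Additive.ofMul (g' i)) = S16_shimura p (Additive.ofMul γ)
    rw [S16_shimura_apply, S16_shimura_apply]
    congr 2
    apply Units.ext
    rw [S16_dUnit_val, S16_dUnit_val, k]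
    push_cast
    rw [S16_gamma0_entry p γ]
    ring
  rw [Finset.sum_congr rfl fun i _ => hone i, Finset.sum_const, Finset.card_univ, ZMod.card,
    nsmul_eq_mul, S16_natCast_p_eq_one, one_mul]

end hecke

end Fermat.Agent.S16
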