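import Mathlib
import Fermat.Agent.S16.LB.LiftB
import Fermat.Agent.S16.LB.Shimura
import Fermat.Agent.S23
import Fermat.Prelude.Def_CuspForm_HeckeLocal
import Fermat.Prelude.Def_CuspForm_HeckeEvalForms
import Fermat.Prelude.Def_HeckeGalois_EichlerShimura
import Fermat.Prelude.Def_ModularCurve_ModularUnit

/-!
# S16, lower bound, package LB5 (part A): algebra

* `heckeEvalForms_surjective`;
* `exists_mem_eisensteinIdeal`: with `m = #(T/I·T)` there is `r` in the Eisenstein ideal with
  `heckeEvalForms (m - r) = 0`;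
* integral classes in `Hom_par(Γ₀(p), ℂ)`.
-/

set_option autoImplicit false

open Matrix MatrixGroups ModularGroup CongruenceSubgroup Matrix.SpecialLinearGroup Module
open ModularCurve ModularCurve.Period CuspForm

namespace Fermat.Agent.S16

section Surj

variable (N : ℕ) [NeZero N] (k : ℤ)

theorem heckeEvalForms_surjective : Function.Surjective (heckeEvalForms N k) := by
  rintro ⟨x, hx⟩
  induction hx using Algebra.adjoin_induction with
  | mem x hx =>
    rcases hx with ⟨ℓ, hℓ, hℓN, -, rfl⟩ | ⟨q, hqN, hq, -, rfl⟩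
    · refine ⟨heckeGen ⟨ℓ, hℓ⟩, ?_⟩
      rw [heckeEvalForms_heckeGen_of_not_dvd (N := N) (k := k) (ℓ := ⟨ℓ, hℓ⟩) hℓN]
      rfl
    · refine ⟨heckeGen ⟨q, hq⟩, ?_⟩
      rw [heckeEvalForms_heckeGen_of_dvd (N := N) (k := k) (q := ⟨q, hq⟩) hqN]
      rfl
  | algebraMap r =>
    refine ⟨MvPolynomial.C r, ?_⟩
    rw [heckeEvalForms_C]
    rfl
  | add x y hx hy ihx ihy =>
    obtain ⟨a, ha⟩ := ihx
    obtain ⟨b, hb⟩ := ihy
    refine ⟨a + b, ?_⟩
    rw [map_add, ha, hb]
    rfl
  | mul x y hx hy ihx ihy =>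
    obtain ⟨a, ha⟩ := ihx
    obtain ⟨b, hb⟩ := ihy
    refine ⟨a * b, ?_⟩
    rw [map_mul, ha, hb]
    rfl

end Surj

section General

/-- The cardinality of a quotient ring lies in the ideal. -/
lemma natCard_quotient_mem {R : Type*} [CommRing R] (J : Ideal R) :
    ((Nat.card (R ⧸ J) : ℕ) : R) ∈ J := by
  rw [← Ideal.Quotient.eq_zero_iff_mem, map_natCast]
  have := card_nsmul_eq_zero' (G := R ⧸ J) (x := 1)
  rw [nsmul_eq_mul, mul_one] at this
  exact this

lemma exists_sub_map_eq_zero {R S : Type*} [CommRing R] [CommRing S] (f : R →+* S)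
    (hf : Function.Surjective f) (I : Ideal R) :
    ∃ r : R, r ∈ I ∧ f (((Nat.card (S ⧸ Ideal.map f I) : ℕ) : R) - r) = 0 := by
  have h1 := natCard_quotient_mem (Ideal.map f I)
  rw [Ideal.mem_map_iff_of_surjective _ hf] at h1
  obtain ⟨r, hr, hrm⟩ := h1
  refine ⟨r, hr, ?_⟩
  rw [map_sub, map_natCast, hrm, sub_self]

end General

section Ideal

variable (p : ℕ) [Fact p.Prime]

/-- The ring homomorphism `ℤ[T_ℓ] → 𝕋` of the statement of S16. -/
noncomputable abbrev heckeToLattice : HeckeAlg →+* ↥(heckeLatticeAlgebra p ∅) :=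
  (latticeRestrictHom p ∅).toRingHom.comp (heckeEvalForms p 2)

theorem heckeToLattice_surjective : Function.Surjective (heckeToLattice p) := by
  intro y
  obtain ⟨x, hx⟩ := latticeRestrictHom_surjective p ∅ y
  obtain ⟨r, hr⟩ := heckeEvalForms_surjective p 2 x
  exact ⟨r, by rw [← hx, ← hr]; rfl⟩

/-- If `r` maps to `0` in the lattice Hecke algebra then it acts as `0` on cusp forms. -/
theorem heckeEvalForms_eq_zero_of_heckeToLattice {r : HeckeAlg} (h : heckeToLattice p r = 0) :
    ((heckeEvalForms p 2 r : ↥(heckeAlgebra p 2 ∅)) :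
      Module.End ℂ (CuspForm (Gamma0 p) 2)) = 0 := by
  have hbij := latticeRestrictHom_bijective p ∅ (Fermat.Agent.S23.result p)
  have h0 : heckeEvalForms p 2 r = 0 := by
    apply hbij.1
    rw [map_zero]
    exact h
  rw [h0]
  rfl

/-- With `m = #(𝕋/I𝕋)`, there is `r` in the Eisenstein ideal with `m - r ↦ 0` in `𝕋`. -/
theorem exists_mem_eisensteinIdeal :
    ∃ r : HeckeAlg, r ∈ eisensteinIdeal p ∧
      heckeToLattice p
        (((Nat.card (↥(heckeLatticeAlgebra p ∅) ⧸
          Ideal.map (heckeToLattice p) (eisensteinIdeal p)) : ℕ) : HeckeAlg) - r) = 0 :=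
  exists_sub_map_eq_zero (heckeToLattice p) (heckeToLattice_surjective p) (eisensteinIdeal p)

end Ideal

end Fermat.Agent.S16
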