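import Mathlib
import Fermat.Agent.S16.LB.FinalA

/-!
# S16, lower bound, package LB5 (part B): the Eisenstein congruence argument

`S16_lower_of_heckeCoh`: given Hecke operators on `Hom_par(Γ₀(p), ℂ)` compatible with the Hecke
operators on cusp forms and given by the double coset formula (package LB3), the Eisenstein
numerator divides the order of `𝕋/I𝕋`.
-/

set_option autoImplicit false

open Matrix MatrixGroups ModularGroup CongruenceSubgroup Matrix.SpecialLinearGroup Module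
open ModularCurve ModularCurve.Period CuspForm
open P2MW.S_ModularForm_heckeT_slash_eq_self_of_mem_Gamma0.ModularForm.HeckeSlashInvariance
open ModularForm

namespace Fermat.Agent.S16

section Classes

variable {N : ℕ}

/-- A complex parabolic class with integer values. -/
def IsIntClass (v : ↥(parabolicHoms ℂ (Gamma0 N) ℂ)) : Prop :=
  ∀ γ : Additive (Gamma0 N), ∃ k : ℤ, (v : Additive (Gamma0 N) →+ ℂ) γ = (k : ℂ)

/-- A complex parabolic class with values in `n ℤ`. -/
def IsDivClass (n : ℕ) (v : ↥(parabolicHoms ℂ (Gamma0 N) ℂ)) : Prop :=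
  ∀ γ : Additive (Gamma0 N), ∃ k : ℤ, (v : Additive (Gamma0 N) →+ ℂ) γ = (n : ℂ) * (k : ℂ)

lemma IsIntClass.add {v w : ↥(parabolicHoms ℂ (Gamma0 N) ℂ)} (hv : IsIntClass v)
    (hw : IsIntClass w) : IsIntClass (v + w) := by
  intro γ
  obtain ⟨k, hk⟩ := hv γ
  obtain ⟨l, hl⟩ := hw γ
  refine ⟨k + l, ?_⟩
  rw [Submodule.coe_add, AddMonoidHom.add_apply, hk, hl]
  push_cast
  rfl

lemma IsIntClass.int_smul {v : ↥(parabolicHoms ℂ (Gamma0 N) ℂ)} (hv : IsIntClass v) (c : ℤ) :
    IsIntClass ((c : ℂ) • v) := by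
  intro γ
  obtain ⟨k, hk⟩ := hv γ
  refine ⟨c * k, ?_⟩
  rw [Submodule.coe_smul, AddMonoidHom.smul_apply, hk, smul_eq_mul]
  push_cast
  rfl

lemma IsDivClass.add {n : ℕ} {v w : ↥(parabolicHoms ℂ (Gamma0 N) ℂ)} (hv : IsDivClass n v)
    (hw : IsDivClass n w) : IsDivClass n (v + w) := by
  intro γ
  obtain ⟨k, hk⟩ := hv γ
  obtain ⟨l, hl⟩ := hw γ
  refine ⟨k + l, ?_⟩
  rw [Submodule.coe_add, AddMonoidHom.add_apply, hk, hl]
  push_cast
  ring

lemma IsDivClass.int_smul {n : ℕ} {v : ↥(parabolicHoms ℂ (Gamma0 N) ℂ)} (hv : IsDivClass n v)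
    (c : ℤ) : IsDivClass n ((c : ℂ) • v) := by
  intro γ
  obtain ⟨k, hk⟩ := hv γ
  refine ⟨c * k, ?_⟩
  rw [Submodule.coe_smul, AddMonoidHom.smul_apply, hk, smul_eq_mul]
  push_cast
  ring

lemma isDivClass_zero (n : ℕ) : IsDivClass n (0 : ↥(parabolicHoms ℂ (Gamma0 N) ℂ)) := by
  intro γ
  exact ⟨0, by simp⟩

/-- A linear endomorphism preserving the integral classes preserves the classes divisible
by `n`. -/
lemma IsDivClass.map {n : ℕ} (hn : n ≠ 0)
    (t : Module.End ℂ ↥(parabolicHoms ℂ (Gamma0 N) ℂ))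
    (ht : ∀ v, IsIntClass v → IsIntClass (t v)) {v : ↥(parabolicHoms ℂ (Gamma0 N) ℂ)}
    (hv : IsDivClass n v) : IsDivClass n (t v) := by
  have hn' : (n : ℂ) ≠ 0 := Nat.cast_ne_zero.mpr hn
  set w : ↥(parabolicHoms ℂ (Gamma0 N) ℂ) := ((n : ℂ)⁻¹) • v with hw
  have hwint : IsIntClass w := by
    intro γ
    obtain ⟨k, hk⟩ := hv γ
    refine ⟨k, ?_⟩
    rw [hw, Submodule.coe_smul, AddMonoidHom.smul_apply, hk, smul_eq_mul]
    field_simp
  have hvw : v = (n : ℂ) • w := by
    rw [hw, smul_smul, mul_inv_cancel₀ hn', one_smul]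
  intro γ
  obtain ⟨k, hk⟩ := ht w hwint γ
  refine ⟨k, ?_⟩
  rw [hvw, map_smul, Submodule.coe_smul, AddMonoidHom.smul_apply, hk, smul_eq_mul]

end Classes

section Main

variable (p : ℕ) [Fact p.Prime]

/-- The Eisenstein numerator is nonzero. -/
lemma eisensteinNumerator_ne_zero : eisensteinNumerator p ≠ 0 := by
  unfold eisensteinNumerator
  have hp : 2 ≤ p := (Fact.out : p.Prime).two_le
  have h1 : 0 < p - 1 := by omega
  have h2 : Nat.gcd (p - 1) 12 ∣ p - 1 := Nat.gcd_dvd_left _ _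
  have h3 : Nat.gcd (p - 1) 12 ≤ p - 1 := Nat.le_of_dvd h1 h2
  have h4 : 0 < Nat.gcd (p - 1) 12 := Nat.gcd_pos_of_pos_left _ h1
  exact (Nat.div_pos h3 h4).ne'

omit [Fact p.Prime] in
/-- The abstract Eisenstein congruence argument.  `τ` is an action of the abstract Hecke algebra
on `V = Hom_par(Γ₀(p), ℂ)`; `hint`: each generator preserves the integral classes; `heis`: the
class `χ` is an eigenvector modulo `n` with the Eisenstein eigenvalues. -/
theorem dvd_of_eisenstein_class (n m : ℕ) (hn : n ≠ 0)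
    (τ : HeckeAlg →+* Module.End ℂ ↥(parabolicHoms ℂ (Gamma0 p) ℂ))
    (hint : ∀ (ℓ : Nat.Primes) (v : ↥(parabolicHoms ℂ (Gamma0 p) ℂ)),
      IsIntClass v → IsIntClass (τ (heckeGen ℓ) v))
    (χ : ↥(parabolicHoms ℂ (Gamma0 p) ℂ))
    (heis : ∀ ℓ : Nat.Primes,
      IsDivClass n (τ (heckeGen ℓ) χ - ((eisensteinSystem p ℓ : ℤ) : ℂ) • χ))
    (r : HeckeAlg) (hr : r ∈ eisensteinIdeal p) (hmr : τ ((m : HeckeAlg) - r) = 0)
    (γ₀ : Additive (Gamma0 p)) (k₀ : ℤ)
    (hγ₀ : (χ : Additive (Gamma0 p) →+ ℂ) γ₀ = (k₀ : ℂ)) (hk₀ : ((k₀ : ℤ) : ZMod n) = 1) :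
    n ∣ m := by
  -- every `τ r` preserves integral classes and acts on `χ` via the Eisenstein character mod `n`
  have key : ∀ s : HeckeAlg,
      (∀ v, IsIntClass v → IsIntClass (τ s v)) ∧
      IsDivClass n (τ s χ -
        ((MvPolynomial.aeval (R := ℤ) (eisensteinSystem p) s : ℤ) : ℂ) • χ) := by
    intro s
    induction s using MvPolynomial.induction_on with
    | C c =>
      have hτc : τ (MvPolynomial.C c) = (c : Module.End ℂ ↥(parabolicHoms ℂ (Gamma0 p) ℂ)) :=
        eq_intCast (τ.comp MvPolynomial.C) c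
      have hτv : ∀ v, τ (MvPolynomial.C c) v = (c : ℂ) • v := by
        intro v
        rw [hτc]
        simp only [Module.End.intCast_apply]
        exact (Int.cast_smul_eq_zsmul ℂ c v).symm
      refine ⟨fun v hv => by rw [hτv]; exact hv.int_smul c, ?_⟩
      rw [hτv, MvPolynomial.aeval_C]
      simp only [Algebra.algebraMap_self, RingHom.id_apply, sub_self]
      exact isDivClass_zero n
    | add s t hs ht =>
      refine ⟨fun v hv => ?_, ?_⟩
      · rw [map_add, LinearMap.add_apply]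
        exact (hs.1 v hv).add (ht.1 v hv)
      · have e : τ (s + t) χ
            - ((MvPolynomial.aeval (R := ℤ) (eisensteinSystem p) (s + t) : ℤ) : ℂ) • χ
            = (τ s χ - ((MvPolynomial.aeval (R := ℤ) (eisensteinSystem p) s : ℤ) : ℂ) • χ)
              + (τ t χ - ((MvPolynomial.aeval (R := ℤ) (eisensteinSystem p) t : ℤ) : ℂ) • χ) := by
          rw [map_add, map_add, LinearMap.add_apply]
          push_cast
          rw [add_smul]
          abel
        rw [e]
        exact hs.2.add ht.2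
    | mul_X s ℓ hs =>
      have hmul : ∀ v, τ (s * MvPolynomial.X ℓ) v = τ s (τ (heckeGen ℓ) v) := by
        intro v
        rw [map_mul]
        rfl
      refine ⟨fun v hv => ?_, ?_⟩
      · rw [hmul]
        exact hs.1 _ (hint ℓ v hv)
      · have e : τ (s * MvPolynomial.X ℓ) χ
            - ((MvPolynomial.aeval (R := ℤ) (eisensteinSystem p) (s * MvPolynomial.X ℓ) : ℤ) : ℂ) • χ
            = τ s (τ (heckeGen ℓ) χ - ((eisensteinSystem p ℓ : ℤ) : ℂ) • χ)
              + ((eisensteinSystem p ℓ : ℤ) : ℂ) •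
                (τ s χ - ((MvPolynomial.aeval (R := ℤ) (eisensteinSystem p) s : ℤ) : ℂ) • χ) := by
          rw [hmul, map_mul, MvPolynomial.aeval_X, map_sub, map_smul, smul_sub, smul_smul]
          push_cast
          rw [mul_comm]
          abel
        rw [e]
        exact (IsDivClass.map hn (τ s) hs.1 (heis ℓ)).add (hs.2.int_smul _)
  -- apply to `r`
  have hr0 : MvPolynomial.aeval (R := ℤ) (eisensteinSystem p) r = 0 :=
    (mem_eigenIdeal_iff _ _).mp hr
  have h1 := (key r).2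
  rw [hr0, Int.cast_zero, zero_smul, sub_zero] at h1
  have h2 : τ r χ = (m : ℂ) • χ := by
    have h3 := congrArg (fun t : Module.End ℂ ↥(parabolicHoms ℂ (Gamma0 p) ℂ) => t χ) hmr
    simp only [map_sub, LinearMap.sub_apply, LinearMap.zero_apply] at h3
    have hτm : τ (m : HeckeAlg) = (m : Module.End ℂ ↥(parabolicHoms ℂ (Gamma0 p) ℂ)) :=
      map_natCast τ m
    rw [hτm] at h3
    have h4 : (m : Module.End ℂ ↥(parabolicHoms ℂ (Gamma0 p) ℂ)) χ = (m : ℂ) • χ := by
      simp only [Module.End.natCast_apply]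
      exact (Nat.cast_smul_eq_nsmul ℂ m χ).symm
    rw [h4] at h3
    exact (sub_eq_zero.mp h3).symm
  rw [h2] at h1
  obtain ⟨k, hk⟩ := h1 γ₀
  rw [Submodule.coe_smul, AddMonoidHom.smul_apply, hγ₀, smul_eq_mul] at hk
  have hk' : (m : ℤ) * k₀ = (n : ℤ) * k := by exact_mod_cast hk
  have hk'' := congrArg (Int.cast : ℤ → ZMod n) hk'
  push_cast at hk''
  rw [hk₀, mul_one, ZMod.natCast_self, zero_mul] at hk''
  exact (ZMod.natCast_eq_zero_iff m n).mp hk''

end Main

end Fermat.Agent.S16
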