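import Mathlib
import Fermat.Agent.S16.LB.FinalB
import Fermat.Agent.S16.LB.HeckeCoh

/-!
# S16, lower bound: the Eisenstein numerator divides the order of `𝕋/I𝕋`

`S16_lower`: `eisensteinNumerator p ∣ #(𝕋 / I·𝕋)`, by the Shimura class (cohomological argument,
no theta series).
-/

set_option autoImplicit false

open Matrix MatrixGroups ModularGroup CongruenceSubgroup Matrix.SpecialLinearGroup Module
open ModularCurve ModularCurve.Period CuspForm
open P2MW.S_ModularForm_heckeT_slash_eq_self_of_mem_Gamma0.ModularForm.HeckeSlashInvariance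
open ModularForm

namespace Fermat.Agent.S16

section

variable (p : ℕ) [Fact p.Prime]

/-- Uniform form of the coset formulas: for every prime `ℓ` and every `γ ∈ Γ₀(p)` there is a finite
family `g'` in `Γ₀(p)` computing `τ(X_ℓ)` at `γ`, on which the Shimura class sums up to the
Eisenstein eigenvalue times its value at `γ`. -/
theorem exists_hecke_data (ℓ : Nat.Primes) (γ : Gamma0 p) :
    ∃ (ι : Type) (_ : Fintype ι) (g' : ι → Gamma0 p),
      (∀ v : ↥(parabolicHoms ℂ (Gamma0 p) ℂ),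
        ((S16_heckeCohHom p (heckeGen ℓ) v : ↥(parabolicHoms ℂ (Gamma0 p) ℂ)) :
          Additive (Gamma0 p) →+ ℂ) (Additive.ofMul γ)
          = ∑ i, (v : Additive (Gamma0 p) →+ ℂ) (Additive.ofMul (g' i))) ∧
      ∑ i, shimuraClass p (Additive.ofMul (g' i))
        = ((eisensteinSystem p ℓ : ℤ) : ZMod (eisensteinNumerator p))
            * shimuraClass p (Additive.ofMul γ) := by
  by_cases h : (ℓ : ℕ) ∣ p
  · have hℓp : (ℓ : ℕ) = p := (Nat.prime_dvd_prime_iff_eq ℓ.2 Fact.out).mp h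
    obtain rfl : ℓ = ⟨p, Fact.out⟩ := Subtype.ext hℓp
    obtain ⟨σ, g', hmul⟩ := S16_exists_heckeU_data (q := p) (dvd_refl p) γ
    refine ⟨ZMod p, inferInstance, g', fun v => ?_, ?_⟩
    · exact S16_heckeCohHom_heckeU_primes (N := p) ⟨p, Fact.out⟩ (dvd_refl p) v γ σ g' hmul
    · rw [eisensteinSystem_of_dvd (N := p) (ℓ := ⟨p, Fact.out⟩) (dvd_refl p), Int.cast_one,
        one_mul]
      exact shimuraClass_heckeU p γ σ g' hmul
  · have : Fact (ℓ : ℕ).Prime := ⟨ℓ.2⟩
    obtain ⟨σ, g', hmul⟩ := S16_exists_heckeT_data (ℓ := (ℓ : ℕ)) h γ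
    refine ⟨OnePoint (ZMod (ℓ : ℕ)), inferInstance, g', fun v => ?_, ?_⟩
    · exact S16_heckeCohHom_heckeT_primes (N := p) ℓ h v γ σ g' hmul
    · rw [eisensteinSystem_of_not_dvd (N := p) (ℓ := ℓ) h]
      have := shimuraClass_heckeT p (ℓ := (ℓ : ℕ)) h γ σ g' hmul
      rw [this]
      push_cast
      ring

/-- **S16, lower bound.** -/
theorem S16_lower :
    eisensteinNumerator p ∣
      Nat.card (↥(heckeLatticeAlgebra p ∅) ⧸
        Ideal.map ((latticeRestrictHom p ∅).toRingHom.comp (heckeEvalForms p 2))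
          (eisensteinIdeal p)) := by
  classical
  set n := eisensteinNumerator p with hn
  have hn0 : n ≠ 0 := eisensteinNumerator_ne_zero p
  -- the lift of the Shimura class
  obtain ⟨χ, hχpar, hχred⟩ := S16_exists_lift (N := p) n hn0 (shimuraClass p)
    (fun γ hγ => shimuraClass_ell p γ hγ)
  set v : ↥(parabolicHoms ℂ (Gamma0 p) ℂ) :=
    ⟨intToComplex _ χ, fun γ hγ => by
      rw [intToComplex_apply, hχpar γ hγ, Int.cast_zero]⟩ with hv
  have hv_apply : ∀ γ, (v : Additive (Gamma0 p) →+ ℂ) γ = ((χ γ : ℤ) : ℂ) := fun γ => rfl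
  -- the element of the Eisenstein ideal
  obtain ⟨r, hr, hmr⟩ := exists_mem_eisensteinIdeal p
  have hτ : S16_heckeCohHom p
      (((Nat.card (↥(heckeLatticeAlgebra p ∅) ⧸
          Ideal.map (heckeToLattice p) (eisensteinIdeal p)) : ℕ) : HeckeAlg) - r) = 0 :=
    S16_heckeCohHom_eq_zero p _ (heckeEvalForms_eq_zero_of_heckeToLattice p hmr)
  obtain ⟨γ₀, hγ₀⟩ := shimuraClass_surj p
  refine dvd_of_eisenstein_class p n _ hn0 (S16_heckeCohHom p) ?_ v ?_ r hr hτ
    (Additive.ofMul γ₀) (χ (Additive.ofMul γ₀)) (hv_apply _) ?_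
  · -- integrality
    intro ℓ w hw γ
    obtain ⟨ι, hι, g', hform, -⟩ := exists_hecke_data p ℓ (Additive.toMul γ)
    choose k hk using hw
    refine ⟨∑ i, k (Additive.ofMul (g' i)), ?_⟩
    have := hform w
    rw [ofMul_toMul] at this
    rw [this]
    push_cast
    exact Finset.sum_congr rfl fun i _ => hk _
  · -- Eisenstein congruence
    intro ℓ γ
    obtain ⟨ι, hι, g', hform, hsum⟩ := exists_hecke_data p ℓ (Additive.toMul γ)
    have h1 := hform v
    rw [ofMul_toMul] at h1
    have hdvd : (n : ℤ) ∣ ∑ i, χ (Additive.ofMul (g' i)) - eisensteinSystem p ℓ * χ γ := by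
      rw [← ZMod.intCast_zmod_eq_zero_iff_dvd]
      push_cast
      simp only [hχred]
      rw [hsum, ofMul_toMul, sub_self]
    obtain ⟨k, hk⟩ := hdvd
    refine ⟨k, ?_⟩
    rw [Submodule.coe_sub, AddMonoidHom.sub_apply, h1, Submodule.coe_smul,
      AddMonoidHom.smul_apply, smul_eq_mul]
    simp only [hv_apply]
    have := congrArg (Int.cast : ℤ → ℂ) hk
    push_cast at this
    exact this
  · rw [hχred, hγ₀]

end

end Fermat.Agent.S16
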